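import Fermat.Agent.BR3.CuspMid.CuspHr1
import Fermat.Agent.BR3.CInfChartCusp

/-!
# Program C, node (SC4): the middle sheets over the cusps of `can`, in the consumers' shape

The cusps are given as in the dichotomy `CZeroChartAll.finite_or_cusp`
(`Q'.adicValuation (j̃⁻¹) < 1`), the non-crossing hypothesis `hnc` is arbitrary (it is provable:
`CInfChart.ne_z₁_of_cusp`), the exponent is `e = 2` (uniform in `q`, `q = 2` included).

* `ord_jFullC_neg_of_cusp` : the bridge `Q.adicValuation (j̃⁻¹) < 1 → Q.ord j̃ < 0`;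
* `thetaCuspMid hqM z := thetaCuspInf hqM 2 z`;
* **`exists_coverSheet_mid_cusp_all`** : the sheet of `mid = w₂ b₀` at EVERY place `Q''` of
  `FMid M B` over EVERY cusp `Q'` of `can`, on the ring of `regChartCan B hB hqM H Q' hnc`, from
  `coeff_mem` alone;
* `ord_map_cusp_all`, `ramificationIndex_cusp_all` : `FMid M B / F̃_M` is unramified over the cusps.
-/

set_option autoImplicit false
set_option linter.style.haveILetI false
set_option linter.unusedSectionVars false

noncomputable section

set_option synthInstance.maxHeartbeats 400000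

namespace Fermat.Agent.BR3.CuspMid

open ModularCurve AlgebraicCurve HahnSeries Polynomial Fermat.Agent.X0 Fermat.Agent.Val
open Fermat.Agent.Hecke.AL Fermat.Agent.BR.TwoVal Fermat.Agent.BR.ResGen Fermat.Agent.Red
open Fermat.Agent.BR.TwoValInst Fermat.Agent.BR3.FibreProd Fermat.Agent.BR.ConstRedTwo
open Fermat.Agent.BR3.CoverK Fermat.Agent.BR3.CoverSheetInf Fermat.Agent.BR.S0
open Fermat.Agent.BR3.IgSq Fermat.Agent.BR.ModUnit Fermat.Agent.BR3.KummerGenus
open Fermat.Agent.BR3.KummerGenus.MidInst Fermat.Agent.BR3.CuspSheet Fermat.Agent.BR.Kron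
open Fermat.Agent.BR.S0.PointDict Fermat.Agent.BR.S0.RedModular Fermat.Agent.BR.S0.RedHyp
open Fermat.Agent.BR3.RegAtlas Fermat.Agent.BR3.RegBase

variable {M q : ℕ} [NeZero M] [hq : Fact q.Prime]
variable (B : ValuationSubring (AlgebraicClosure ℚ)) (hB : B.LiesOverPrime q) (hqM : ¬ q ∣ M)
variable {ζ : Kbˣ} (hζ : IsPrimitiveRoot ζ q)

local notation "kB" => IsLocalRing.ResidueField B
local notation "FtM" => modularFunctionFieldFullC (IsLocalRing.ResidueField B) M

/-- (shortcut instances) -/
local instance (priority := 100000) instAlgKFtCA : Algebra kB FtM := inferInstance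
local instance (priority := 100000) instAlgKFMidCA : Algebra kB (FMid M B) := inferInstance
local instance (priority := 100000) instAlgFtFMidCA : Algebra FtM (FMid M B) := inferInstance
local instance (priority := 100000) instTowerMidCA : IsScalarTower kB FtM (FMid M B) :=
  inferInstance

/-- **The bridge between the two forms of "cusp".** -/
theorem ord_jFullC_neg_of_cusp (Q : Place kB FtM)
    (hQ : Q.adicValuation ((jFullC kB M)⁻¹) < 1) : Q.ord (jFullC kB M) < 0 := by
  have hj : jFullC kB M ≠ 0 := jFullC_ne_zero' B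
  rcases (adicValuation_lt_one_iff Q).mp hQ with h | h
  · exact absurd h (inv_ne_zero hj)
  · have h1 := Q.ord_zpow (jFullC kB M) (-1)
    rw [zpow_neg_one] at h1
    rw [h1] at h
    linarith

theorem cusp_of_ord_jFullC_neg (Q : Place kB FtM) (hQ : Q.ord (jFullC kB M) < 0) :
    Q.adicValuation ((jFullC kB M)⁻¹) < 1 := by
  refine (adicValuation_lt_one_iff Q).mpr (Or.inr ?_)
  have h1 := Q.ord_zpow (jFullC kB M) (-1)
  rw [zpow_neg_one] at h1
  rw [h1]
  linarith

/-- the generator of the middle sheets over the cusps (exponent `e = 2`, uniform in `q`) -/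
def thetaCuspMid (z : Kb) : Fb (M * q * q) := thetaCuspInf (M := M) hqM 2 z

theorem thetaCuspMid_eq (z : Kb) :
    thetaCuspMid (M := M) hqM z =
      thetaGen hqM ((1 - hSepInf M q) ^ 2) (jBar (M * q))⁻¹ (jBar (M * q))⁻¹ z := rfl

include hB hqM in
/-- **`FMid M B / F̃_M` is unramified over the cusps of `can`** (orders). -/
theorem ord_map_cusp_all [FiniteDimensional FtM (FMid M B)] (Q' : Place kB FtM)
    (hcusp : Q'.adicValuation ((jFullC kB M)⁻¹) < 1) {Q'' : Place kB (FMid M B)}
    (hQ'' : Q''.restrict FtM = Q') (f : FtM) :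
    Q''.ord (algebraMap FtM (FMid M B) f) = Q'.ord f :=
  ord_map_of_cusp B hB hqM Q' (ord_jFullC_neg_of_cusp B Q' hcusp) hQ'' f

include hB hqM in
/-- **`FMid M B / F̃_M` is unramified over the cusps of `can`** (ramification index). -/
theorem ramificationIndex_cusp_all [FiniteDimensional FtM (FMid M B)] (Q' : Place kB FtM)
    (hcusp : Q'.adicValuation ((jFullC kB M)⁻¹) < 1) {Q'' : Place kB (FMid M B)}
    (hQ'' : Q''.restrict FtM = Q') : Q''.ramificationIndex FtM = 1 :=
  ramificationIndex_eq_one_of_cusp B hB hqM Q' (ord_jFullC_neg_of_cusp B Q' hcusp) hQ''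

set_option maxHeartbeats 2000000 in
include hB hqM in
/-- **The sheet of the middle component `mid = w₂ b₀` at EVERY place `Q''` of `FMid M B` over
EVERY cusp `Q'` of `can`, along `α₂`, on the ring of the chart `regChartCan` of the base at
`Q'`** — the only input is `coeff_mem`: the minimal polynomial over `α₂ F̄_{Mq}` of the generator
`thetaCuspMid z₀ = (1 - θ∞)² (j/j(s^{q²}) - 1)/(z₀ - 1)` has its coefficients in the chart ring. -/
theorem exists_coverSheet_mid_cusp_all [FiniteDimensional FtM (FMid M B)] (b₀ : Fin (q - 1))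
    (H : AtlasHyp (chartDataModular B hB hqM) (jx M q))
    (Q' : Place kB FtM) (hnc : ∀ c, Q' ≠ z₁ (chartDataModular B hB hqM) c)
    (hcusp : Q'.adicValuation ((jFullC kB M)⁻¹) < 1) {Q'' : Place kB (FMid M B)}
    (hQ'' : Q''.restrict FtM = Q')
    (coeff_mem : letI := algebraAlong (alpha2 M q)
      ∀ n, (minpoly (Fb (M * q))
        (thetaCuspMid (M := M) hqM ((ζ ^ ((b₀ : ℕ) + 1) : Kbˣ) : Kb))).coeff n ∈
          (regChartCan B hB hqM H Q' hnc).chart.R) :
    letI := algebraAlong (alpha2 M q)
    haveI := isScalarTower_along (alpha2 M q)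
    ∃ (u : B) (ψ ψc : (Fb (M * q))[X]), IsLocalRing.residue B u ≠ 0 ∧
      CoverSheet B (IsLocalRing.residue B) (constRedW1 B hB hqM).O (constRedW1 B hB hqM).res Q'
        (constRedMid B hB hqM hζ b₀.2).O (constRedMid B hB hqM hζ b₀.2).res Q''
        (regChartCan B hB hqM H Q' hnc).chart.R
        (thetaCuspMid (M := M) hqM ((ζ ^ ((b₀ : ℕ) + 1) : Kbˣ) : Kb))
        (minpoly (Fb (M * q)) (thetaCuspMid (M := M) hqM ((ζ ^ ((b₀ : ℕ) + 1) : Kbˣ) : Kb)))
        ψ ψc u := by
  have he : 2 ≤ (q - 1) * 2 := by have := hq.out.two_le; omega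
  exact exists_coverSheet_mid_cuspInf_can B hB hqM hζ he b₀ H Q' hnc
    (ord_jFullC_neg_of_cusp B Q' hcusp) hQ'' coeff_mem

end Fermat.Agent.BR3.CuspMid
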