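import Fermat.Agent.BR3.CuspMid.CuspValue
import Fermat.Agent.BR3.ThickOneUnit
import Fermat.Agent.BR3.RegBaseModular

/-!
# Program C, node (SC4): the generator at the cusps is small on `can` (`hr1`), and the sheet on the
chart `regChartCan`

Kronecker: `s · t = q · Ψ_q(j(s^q), j)` with `s = j - j(s^q)^q` a UNIT of `O₁` and
`t = j(s^q) - j^q`, hence `1 - j(s^q)/j^q = -t/j^q ∈ q·O₁` and

  `(1 - hSepInf)^e / (z₀ - 1) ∈ 𝔪(O₁)`      as soon as `2 ≤ (q-1)·e`

(`e = 2` for every `q`, `e = 1` for `q ≥ 3`).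

* `q_pow_div_mem_nonunits'` : `q^e/(ζ^{b+1} - 1)` is a non-unit of `B` for `2 ≤ (q-1) e`;
* `one_sub_hSepInf_eq` : `1 - hSepInf = q · (-(Ψ · s⁻¹ · (j⁻¹)^q))`, the cofactor in `O₁`;
* **`rInf_mul_mem_nonunits_O1`** : the hypothesis `hr1`;
* **`exists_coverSheet_mid_cuspInf_can`** : the sheet of `mid = w₂ b₀` at the points over a cusp
  `Q'` of `can`, for the ring of the chart `regChartCan B hB hqM H Q' hQ` (helper1/helper4), from
  `coeff_mem` alone.
-/

set_option autoImplicit false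
set_option linter.style.haveILetI false
set_option linter.unusedSectionVars false

noncomputable section

set_option synthInstance.maxHeartbeats 400000

namespace Fermat.Agent.BR3.CuspMid

open ModularCurve AlgebraicCurve HahnSeries Polynomial Fermat.Agent.X0 Fermat.Agent.Val
open Fermat.Agent.Hecke.AL Fermat.Agent.BR.TwoVal Fermat.Agent.BR.ResGen Fermat.Agent.Red
open Fermat.Agent.BR.TwoValInst Fermat.Agent.BR3.FibreProd Fermat.Agent.BR.ConstRedTwo
open Fermat.Agent.BR3.CoverK Fermat.Agent.BR3.CoverSheetInf Fermat.Agent.BR.S0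
open Fermat.Agent.BR3.IgSq Fermat.Agent.BR.ModUnit Fermat.Agent.BR3.KummerGenus
open Fermat.Agent.BR3.KummerGenus.MidInst Fermat.Agent.BR3.CuspSheet Fermat.Agent.BR.Kron
open Fermat.Agent.BR.S0.PointDict Fermat.Agent.BR.S0.RedModular Fermat.Agent.BR.S0.RedHyp
open Fermat.Agent.BR3.RegAtlas Fermat.Agent.BR3.RegBase

variable {M q : ℕ} [NeZero M] [hq : Fact q.Prime]
variable (B : ValuationSubring (AlgebraicClosure ℚ)) (hB : B.LiesOverPrime q) (hqM : ¬ q ∣ M)
variable {ζ : Kbˣ} (hζ : IsPrimitiveRoot ζ q)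

local notation "kB" => IsLocalRing.ResidueField B
local notation "FtM" => modularFunctionFieldFullC (IsLocalRing.ResidueField B) M

/-- (shortcut instances) -/
local instance (priority := 100000) instAlgKFtCH : Algebra kB FtM := inferInstance
local instance (priority := 100000) instAlgKFMidCH : Algebra kB (FMid M B) := inferInstance
local instance (priority := 100000) instAlgFtFMidCH : Algebra FtM (FMid M B) := inferInstance
local instance (priority := 100000) instTowerMidCH : IsScalarTower kB FtM (FMid M B) :=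
  inferInstance

/-! ### `q^e / (z₀ - 1)` -/

include hB hζ in
/-- `q^e / (ζ^{b+1} - 1)` is a non-unit of `B` as soon as `2 ≤ (q-1) e` -/
theorem q_pow_div_mem_nonunits' {b : ℕ} (hb : b < q - 1) {e : ℕ} (he : 2 ≤ (q - 1) * e) :
    ((q : Kb) ^ e * ((((ζ ^ (b + 1) : Kbˣ) : Kb)) - 1)⁻¹) ∈ B.nonunits := by
  have hcop : Nat.Coprime (b + 1) q := by
    rw [Nat.coprime_comm]
    refine (Nat.Prime.coprime_iff_not_dvd hq.out).2 fun h => ?_
    have := Nat.le_of_dvd (Nat.succ_pos b) h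
    omega
  have hz : IsPrimitiveRoot (((ζ ^ (b + 1) : Kbˣ) : Kb)) q :=
    (hζ.pow_of_coprime (b + 1) hcop).map_of_injective Units.coeHom_injective
  set z : Kb := ((ζ ^ (b + 1) : Kbˣ) : Kb) with hzdef
  have h1 : B.valuation (z - 1) ^ (q - 1) = B.valuation (q : Kb) :=
    WildCyclo.valuation_sub_one_pow hq.out hz B
  have hq1 : B.valuation (q : Kb) < 1 := (ValuationSubring.mem_nonunits_iff (A := B)).1 hB
  have hne : z - 1 ≠ 0 := by
    intro h
    apply zeta_pow_ne_one hζ hb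
    exact Units.ext (by rw [Units.val_one]; exact sub_eq_zero.1 h)
  have hv0 : B.valuation (z - 1) ≠ 0 := (Valuation.ne_zero_iff _).2 hne
  have hv1 : B.valuation (z - 1) < 1 := by
    by_contra hge
    rw [not_lt] at hge
    have : (1 : ValuationSubring.ValueGroup B) ≤ B.valuation (z - 1) ^ (q - 1) :=
      one_le_pow_of_one_le' hge _
    rw [h1] at this
    exact absurd hq1 (not_lt.2 this)
  rw [ValuationSubring.mem_nonunits_iff, map_mul, map_pow, map_inv₀, ← h1, ← pow_mul]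
  obtain ⟨n, hn⟩ : ∃ n, (q - 1) * e = n + 2 := ⟨(q - 1) * e - 2, by omega⟩
  rw [hn, pow_succ, mul_assoc, mul_inv_cancel₀ hv0, mul_one]
  exact pow_lt_one₀ zero_le hv1 (by omega)

/-! ### Kronecker on `can` -/

/-- the cofactor of `q` in `1 - hSepInf` -/
def kronCof (hqM : ¬ q ∣ M) : Fb (M * q) :=
  -((psiK q (Fb (M * q))).evalEval (jq' M q) (jBar (M * q)) * (sKron M q)⁻¹ *
    ((jBar (M * q))⁻¹) ^ q)

include hB in
theorem kronCof_mem_O1 : kronCof (M := M) (q := q) hqM ∈ O1 M B hB := by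
  rw [kronCof]
  refine neg_mem (mul_mem (mul_mem ?_ ?_) (pow_mem (jBar_inv_mem_O1 B hB) q))
  · exact Fermat.Agent.BR3.VertLevelMem.psiK_evalEval_mem (O1 M B hB).toSubring
      (jq'_mem_O1 B hB) (jBar_mem_O1 B hB)
  · exact Fermat.Agent.BR.TwoVal.inv_mem_of_notMem_nonunits _ (sKron_notMem_nonunits_O1 B hB hqM)

include hB in
/-- **Kronecker**: `1 - j(s^q)/j^q = q · kronCof`. -/
theorem one_sub_hSepInf_eq :
    1 - hSepInf M q = algebraMap Kb (Fb (M * q)) (q : Kb) * kronCof (M := M) (q := q) hqM := by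
  have hs : sKron M q ≠ 0 := sKron_ne_zero B hB hqM
  have hj : jBar (M * q) ≠ 0 := by
    intro h
    have h1 := res1_jBar (M := M) (q := q) B hB
    have h2 : (⟨jBar (M * q), jBar_mem_O1 B hB⟩ : O1 M B hB) = 0 := Subtype.ext h
    rw [h2, map_zero] at h1
    exact jqModC_ne_zero_of_nontrivial kB h1.symm
  have hK := Fermat.Agent.BR3.ThickOneUnit.sKron_mul_tKron (M := M) (q := q)
  have hQ : jQ M q = jq' M q := Fermat.Agent.BR.Inst.TwoCompGlue.jQ_eq
  have hO : jOne M q = jBar (M * q) := Fermat.Agent.BR.Inst.TwoCompGlue.jOne_eq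
  rw [Algebra.smul_def, map_natCast] at hK
  have ht : tKron M q = jq' M q - jBar (M * q) ^ q := by rw [tKron, hQ, hO]
  rw [kronCof, hSepInf, map_natCast]
  have hK' : (q : Fb (M * q)) * (psiK q (Fb (M * q))).evalEval (jq' M q) (jBar (M * q)) =
      sKron M q * (jq' M q - jBar (M * q) ^ q) := by rw [← hK, ht]
  have h1 : jBar (M * q) ^ q * ((jBar (M * q))⁻¹) ^ q = 1 := by
    rw [← mul_pow, mul_inv_cancel₀ hj, one_pow]
  have h2 : sKron M q * (sKron M q)⁻¹ = 1 := mul_inv_cancel₀ hs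
  linear_combination ((sKron M q)⁻¹ * ((jBar (M * q))⁻¹) ^ q) * hK' +
    ((jq' M q - jBar (M * q) ^ q) * ((jBar (M * q))⁻¹) ^ q) * h2 - h1

include hB hqM hζ in
/-- **The hypothesis `hr1` for the cusp generator**: `(1 - hSepInf)^e / (z₀ - 1)` is small on
`can` (`e = 2` for every `q`; `e = 1` for `q ≥ 3`). -/
theorem rInf_mul_mem_nonunits_O1 {b : ℕ} (hb : b < q - 1) {e : ℕ} (he : 2 ≤ (q - 1) * e) :
    rInf M q e * algebraMap Kb (Fb (M * q)) ((((ζ ^ (b + 1) : Kbˣ) : Kb)) - 1)⁻¹ ∈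
      (O1 M B hB).nonunits := by
  have e1 : rInf M q e * algebraMap Kb (Fb (M * q)) ((((ζ ^ (b + 1) : Kbˣ) : Kb)) - 1)⁻¹ =
      algebraMap Kb (Fb (M * q)) ((q : Kb) ^ e * ((((ζ ^ (b + 1) : Kbˣ) : Kb)) - 1)⁻¹) *
        kronCof (M := M) (q := q) hqM ^ e := by
    rw [rInf, one_sub_hSepInf_eq B hB hqM, mul_pow, map_mul, map_pow]
    ring
  rw [e1]
  exact mul_mem_nonunits_right _
    ((Fermat.Agent.BR.Separate.algebraMap_mem_nonunits_O1_iff B hB _).2
      (q_pow_div_mem_nonunits' B hB hζ hb he)) (pow_mem (kronCof_mem_O1 B hB hqM) e)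

/-! ### The sheet on `regChartCan` -/

set_option maxHeartbeats 2000000 in
include hB hqM in
/-- **The sheet of the middle component `mid = w₂ b₀` at a point `Q''` over a cusp `Q'` of `can`
along `α₂`, for the ring of the chart `regChartCan` of the base at `Q'`**, from `coeff_mem` alone
(the minimal polynomial over `α₂ F̄_{Mq}` of the generator
`thetaCuspInf e z₀ = (1 - θ∞)^e (j/j(s^{q²}) - 1)/(z₀ - 1)` has its coefficients in the chart
ring). -/
theorem exists_coverSheet_mid_cuspInf_can [FiniteDimensional FtM (FMid M B)] {e : ℕ}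
    (he : 2 ≤ (q - 1) * e) (b₀ : Fin (q - 1))
    (H : AtlasHyp (chartDataModular B hB hqM) (jx M q))
    (Q' : Place kB FtM) (hQ : ∀ c, Q' ≠ z₁ (chartDataModular B hB hqM) c)
    (hQ' : Q'.ord (jFullC kB M) < 0) {Q'' : Place kB (FMid M B)}
    (hQ'' : Q''.restrict FtM = Q')
    (coeff_mem : letI := algebraAlong (alpha2 M q)
      ∀ n, (minpoly (Fb (M * q))
        (thetaCuspInf (M := M) hqM e ((ζ ^ ((b₀ : ℕ) + 1) : Kbˣ) : Kb))).coeff n ∈
          (regChartCan B hB hqM H Q' hQ).chart.R) :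
    letI := algebraAlong (alpha2 M q)
    haveI := isScalarTower_along (alpha2 M q)
    ∃ (u : B) (ψ ψc : (Fb (M * q))[X]), IsLocalRing.residue B u ≠ 0 ∧
      CoverSheet B (IsLocalRing.residue B) (constRedW1 B hB hqM).O (constRedW1 B hB hqM).res Q'
        (constRedMid B hB hqM hζ b₀.2).O (constRedMid B hB hqM hζ b₀.2).res Q''
        (regChartCan B hB hqM H Q' hQ).chart.R
        (thetaCuspInf (M := M) hqM e ((ζ ^ ((b₀ : ℕ) + 1) : Kbˣ) : Kb))
        (minpoly (Fb (M * q)) (thetaCuspInf (M := M) hqM e ((ζ ^ ((b₀ : ℕ) + 1) : Kbˣ) : Kb)))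
        ψ ψc u :=
  exists_coverSheet_mid_cuspInf B hB hqM hζ e b₀
    (rInf_mul_mem_nonunits_O1 B hB hqM hζ b₀.2 he) Q' hQ' hQ''
    (regChartCan B hB hqM H Q' hQ).chart coeff_mem (hlift_regChartCan B hB hqM H Q' hQ)

end Fermat.Agent.BR3.CuspMid
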