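import Mathlib
import Fermat.Agent.Val.SeparableModL
import Fermat.Agent.BR.ZeroCount

/-!
# Program C, node (SC4) (mid sheets at the cusps), file 1: functions of level one at the cusps

`k` a field, `j̃ = jqModC k ∈ k((s))`, `F̃_M = modularFunctionFieldFullC k M ⊆ k((s))` (the function
field of `X₀(M)` over `k`, with its expansion at the cusp `∞`).  The expansion only sees the cusp
`∞`; the other cusps of `X₀(M)` (the places of `F̃_M` at which `j̃` has a pole) are reached through
functions of LEVEL ONE: a rational function of `j̃` of degree `0` is a unit at every pole of `j̃`.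

* `addVal_aeval_jqModC`, `order_aeval_jqModC`, `aeval_jqModC_ne_zero` : the `s`-adic order of
  `P(j̃)` is `- deg P`;
* `fullC_one_eq` : `modularFunctionFieldFullC k 1 = k(j̃)`;
* `exists_polys_of_mem_level_one` : a nonzero `f ∈ k(j̃)` of `s`-adic order `0` is `N(j̃) / T(j̃)`
  with `deg N = deg T`;
* **`ord_eq_zero_of_mem_level_one`** : a nonzero `f ∈ F̃_M` which lies in `k(j̃)` and has `s`-adic
  order `0` is a unit at every place `Q` of `F̃_M` with `ord_Q j̃ < 0` (every cusp of `X₀(M)`);
* `ord_eq_zero_of_pow_mem_level_one` : the same when only a power `f ^ n`, `n > 0`, lies in `k(j̃)`.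
-/

set_option autoImplicit false
set_option linter.unusedSectionVars false

namespace Fermat.Agent.BR3.CuspMid

open ModularCurve AlgebraicCurve Polynomial

section Laurent

variable {k : Type*} [Field k]

theorem order_jqModC_eq : (jqModC k).order = -1 := by
  have hne : jqModC k ≠ 0 := jqModC_ne_zero_of_nontrivial k
  apply le_antisymm
  · apply HahnSeries.order_le_of_coeff_ne_zero
    rw [coeff_jqModC_neg_one]
    exact one_ne_zero
  · by_contra hlt
    push Not at hlt
    exact hne (HahnSeries.coeff_order_eq_zero.1 (coeff_jqModC_of_lt k hlt))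

theorem addVal_jqModC :
    HahnSeries.addVal ℤ k (jqModC k) = ((-1 : ℤ) : WithTop ℤ) := by
  rw [HahnSeries.addVal_apply_of_ne (jqModC_ne_zero_of_nontrivial k), order_jqModC_eq]

theorem addVal_algebraMap_of_ne_zero {a : k} (ha : a ≠ 0) :
    HahnSeries.addVal ℤ k (algebraMap k (LaurentSeries k) a) = 0 := by
  have h1 : algebraMap k (LaurentSeries k) a = HahnSeries.C a := by
    rw [algebraMap_laurentSeries_eq_single, HahnSeries.C_apply]
  have hne : (HahnSeries.C a : LaurentSeries k) ≠ 0 := by
    rw [Ne, ← map_zero (HahnSeries.C : k →+* LaurentSeries k)]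
    exact fun h => ha (HahnSeries.C_injective h)
  rw [h1, HahnSeries.addVal_apply_of_ne hne, HahnSeries.order_C]
  rfl

theorem addVal_algebraMap_mul_pow (a : k) (i : ℕ) (ha : a ≠ 0) :
    HahnSeries.addVal ℤ k (algebraMap k (LaurentSeries k) a * jqModC k ^ i) =
      ((-(i : ℤ) : ℤ) : WithTop ℤ) := by
  rw [AddValuation.map_mul, AddValuation.map_pow, addVal_algebraMap_of_ne_zero ha,
    addVal_jqModC, zero_add, ← WithTop.coe_nsmul]
  congr 1
  simp

/-- **The `s`-adic valuation of `P(j̃)`** is `- deg P`. -/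
theorem addVal_aeval_jqModC {P : k[X]} (hP : P ≠ 0) :
    HahnSeries.addVal ℤ k (aeval (jqModC k) P) = ((-(P.natDegree : ℤ) : ℤ) : WithTop ℤ) := by
  rw [aeval_eq_sum_range]
  simp only [Algebra.smul_def]
  rw [Finset.sum_range_succ, add_comm]
  have hlead : P.coeff P.natDegree ≠ 0 := by
    rw [coeff_natDegree]
    exact leadingCoeff_ne_zero.mpr hP
  have h1 := addVal_algebraMap_mul_pow (P.coeff P.natDegree) P.natDegree hlead
  have h2 : ((-(P.natDegree : ℤ) : ℤ) : WithTop ℤ) <
      HahnSeries.addVal ℤ k (∑ i ∈ Finset.range P.natDegree,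
        algebraMap k (LaurentSeries k) (P.coeff i) * jqModC k ^ i) := by
    apply AddValuation.map_lt_sum _ (WithTop.coe_ne_top)
    intro i hi
    rw [Finset.mem_range] at hi
    by_cases h0 : P.coeff i = 0
    · rw [h0, map_zero, zero_mul, AddValuation.map_zero]
      exact WithTop.coe_lt_top _
    · rw [addVal_algebraMap_mul_pow _ _ h0, WithTop.coe_lt_coe]
      omega
  rw [AddValuation.map_add_eq_of_lt_left _ (by rw [h1]; exact h2), h1]

theorem aeval_jqModC_ne_zero {P : k[X]} (hP : P ≠ 0) : aeval (jqModC k) P ≠ 0 := by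
  intro h
  have h1 := addVal_aeval_jqModC hP
  rw [h, AddValuation.map_zero] at h1
  exact WithTop.top_ne_coe h1

/-- **The `s`-adic order of `P(j̃)`** is `- deg P`. -/
theorem order_aeval_jqModC {P : k[X]} (hP : P ≠ 0) :
    (aeval (jqModC k) P).order = -(P.natDegree : ℤ) := by
  have h1 := addVal_aeval_jqModC hP
  rw [HahnSeries.addVal_apply_of_ne (aeval_jqModC_ne_zero hP)] at h1
  exact WithTop.coe_injective h1

/-- level one: `modularFunctionFieldFullC k 1 = k(j̃)` -/
theorem fullC_one_eq :
    modularFunctionFieldFullC k 1 = IntermediateField.adjoin k {jqModC k} := by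
  unfold modularFunctionFieldFullC
  congr 1
  ext x
  constructor
  · rintro ⟨d, hd, hdvd, rfl⟩
    have h1 : d = 1 := Nat.dvd_one.mp hdvd
    subst h1
    rw [Set.mem_singleton_iff, qExpand_one_apply]
  · intro hx
    rw [Set.mem_singleton_iff] at hx
    subst hx
    refine ⟨1, inferInstance, dvd_rfl, ?_⟩
    rw [qExpand_one_apply]

/-- A nonzero function of level one of `s`-adic order `0` is a quotient `N(j̃) / T(j̃)` of two
polynomials in `j̃` of the same degree. -/
theorem exists_polys_of_mem_level_one {f : LaurentSeries k}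
    (hf1 : f ∈ modularFunctionFieldFullC k 1) (hf0 : f.order = 0) (hfne : f ≠ 0) :
    ∃ T N : k[X], T ≠ 0 ∧ N ≠ 0 ∧ N.natDegree = T.natDegree ∧
      f * aeval (jqModC k) T = aeval (jqModC k) N := by
  rw [fullC_one_eq, IntermediateField.mem_adjoin_simple_iff] at hf1
  obtain ⟨N, T, hf⟩ := hf1
  have hT : T ≠ 0 := by
    rintro rfl
    rw [map_zero, div_zero] at hf
    exact hfne hf
  have hN : N ≠ 0 := by
    rintro rfl
    rw [map_zero, zero_div] at hf
    exact hfne hf
  have hT0 := aeval_jqModC_ne_zero (k := k) hT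
  have heq : f * aeval (jqModC k) T = aeval (jqModC k) N := by
    rw [hf, div_mul_cancel₀ _ hT0]
  refine ⟨T, N, hT, hN, ?_, heq⟩
  have h1 := congrArg HahnSeries.order heq
  rw [HahnSeries.order_mul hfne hT0, hf0, zero_add, order_aeval_jqModC hT,
    order_aeval_jqModC hN] at h1
  omega

end Laurent

section Places

variable {k : Type*} [Field k] {M : ℕ} [NeZero M]

/-- **A function of level one and `s`-adic order `0` is a unit at every cusp.**  `Q` a place of
`F̃_M` at which `j̃` has a pole; `f ∈ F̃_M` nonzero, lying in `k(j̃)`, whose expansion at `∞` has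
order `0`.  Then `ord_Q f = 0`. -/
theorem ord_eq_zero_of_mem_level_one (Q : Place k (modularFunctionFieldFullC k M))
    (hQ : Q.ord (Fermat.Agent.Val.jFullC k M) < 0) {f : modularFunctionFieldFullC k M}
    (hf1 : (f : LaurentSeries k) ∈ modularFunctionFieldFullC k 1)
    (hf0 : (f : LaurentSeries k).order = 0) (hfne : f ≠ 0) : Q.ord f = 0 := by
  have hfne' : (f : LaurentSeries k) ≠ 0 := fun h => hfne (Subtype.ext h)
  obtain ⟨T, N, hT, hN, hdeg, heq⟩ := exists_polys_of_mem_level_one hf1 hf0 hfne'
  have hco : ∀ P : k[X], ((aeval (Fermat.Agent.Val.jFullC k M) P :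
      modularFunctionFieldFullC k M) : LaurentSeries k) = aeval (jqModC k) P := by
    intro P
    have h := Polynomial.aeval_algebraMap_apply (A := modularFunctionFieldFullC k M)
      (LaurentSeries k) (Fermat.Agent.Val.jFullC k M) P
    exact h.symm
  have heq' : f * aeval (Fermat.Agent.Val.jFullC k M) T =
      aeval (Fermat.Agent.Val.jFullC k M) N := by
    apply Subtype.ext
    show (f : LaurentSeries k) * ((aeval (Fermat.Agent.Val.jFullC k M) T :
      modularFunctionFieldFullC k M) : LaurentSeries k) = _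
    rw [hco, hco, heq]
  have hT0 : aeval (Fermat.Agent.Val.jFullC k M) T ≠ 0 := by
    intro h
    have h1 := hco T
    rw [h] at h1
    exact aeval_jqModC_ne_zero (k := k) hT h1.symm
  have h1 := congrArg Q.ord heq'
  rw [Q.ord_mul hfne hT0, Fermat.Agent.BR.ZeroCount.ord_aeval_eq_mul Q hQ hT,
    Fermat.Agent.BR.ZeroCount.ord_aeval_eq_mul Q hQ hN, hdeg] at h1
  linarith

/-- The same when only a power of `f` is of level one. -/
theorem ord_eq_zero_of_pow_mem_level_one (Q : Place k (modularFunctionFieldFullC k M))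
    (hQ : Q.ord (Fermat.Agent.Val.jFullC k M) < 0) {f : modularFunctionFieldFullC k M} {n : ℕ}
    (hn : 0 < n) (hf1 : (f : LaurentSeries k) ^ n ∈ modularFunctionFieldFullC k 1)
    (hf0 : (f : LaurentSeries k).order = 0) (hfne : f ≠ 0) : Q.ord f = 0 := by
  have hfne' : (f : LaurentSeries k) ≠ 0 := fun h => hfne (Subtype.ext h)
  have h1 : Q.ord (f ^ n) = 0 := by
    apply ord_eq_zero_of_mem_level_one Q hQ (f := f ^ n) hf1 _ (pow_ne_zero n hfne)
    show ((f : LaurentSeries k) ^ n).order = 0
    rw [HahnSeries.order_pow, hf0, smul_zero]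
  have h2 : Q.ord (f ^ n) = (n : ℤ) * Q.ord f := by
    have := Q.ord_zpow f (n : ℤ)
    rwa [zpow_natCast] at this
  rw [h2] at h1
  rcases mul_eq_zero.mp h1 with h | h
  · exact absurd (by exact_mod_cast h) hn.ne'
  · exact h

end Places

end Fermat.Agent.BR3.CuspMid
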