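import Mathlib
import Fermat.Agent.BR3.KummerGenus.TotalRam
import Fermat.Agent.Red.Values

/-!
# Program C, node (SC4) (mid sheets at the cusps), file 2: a Kummer extension is unramified over
the points where the order of `δ` is divisible by the degree

`E/κ` function fields over `k` (all places of degree one), `X : KummerDatum k κ E n` a Kummer
presentation (`E = κ(u)`, `uⁿ = δ`, `σ u = ζ u`, `ζ ∈ k` a primitive `n`-th root of unity,
`[E : κ] = n`).  Twin of `KummerGenus/TotalRam` (`(ord_v δ, n) = 1` ⟹ total ramification):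

* `isValueAt_smul` : values are transported by automorphisms;
* **`ramificationIndex_eq_one_of_dvd`** : if `n ∣ ord_v δ` then every place `w` of `E` over `v` is
  unramified.  [`λ = u g`, `g ∈ κ` with `ord_v (gⁿ δ) = 0`, is a unit at `w` with a value `c₀ ≠ 0`;
  the `n` conjugates `σ^i w` are over `v` and pairwise distinct (`λ` takes the `n` different values
  `ζ^{-i} c₀` there) and have the ramification index of `w`; `Σ e = n` forces `e = 1`.]
* `ord_algebraMap_of_dvd` : the field `ord_map` of `CoverK.CoverSheet` at such a point.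

Consumer: the residue field `FMid M B = F̃_M(θ j̃)` of the middle components over `F̃_M`
(`KummerGenus.MidInst.midDatum`) at the cusps and at the ordinary points.
-/

set_option autoImplicit false
set_option linter.unusedSectionVars false

noncomputable section

namespace Fermat.Agent.BR3.CuspMid

open AlgebraicCurve Fermat.Agent.Red Fermat.Agent.X0 Fermat.Agent.BR3.KummerGenus Finset

section Smul

variable {k E : Type*} [Field k] [Field E] [Algebra k E]

/-- values are transported by automorphisms -/
theorem isValueAt_smul (τ : E ≃ₐ[k] E) {w : Place k E} {x : E} {c : k} (h : IsValueAt w x c) :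
    IsValueAt (τ • w) (τ x) c := by
  rw [isValueAt_iff] at h ⊢
  rcases h with h | h
  · left
    rw [h, τ.commutes]
  · right
    have h1 : τ x - algebraMap k E c = τ (x - algebraMap k E c) := by
      rw [map_sub, τ.commutes]
    rw [h1, Place.ord_smul]
    exact h

end Smul

variable {k κ E : Type*} [Field k] [Field κ] [Field E] [Algebra k κ] [Algebra k E] [Algebra κ E]
  [IsScalarTower k κ E] [FiniteDimensional κ E]
  [HasPrincipalDivisors k κ] [HasPrincipalDivisors k E] [FundamentalIdentity k κ E]
variable {n : ℕ} (X : KummerDatum k κ E n)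

/-- **A Kummer extension of degree `n` is unramified over the points where `n ∣ ord δ`.** -/
theorem ramificationIndex_eq_one_of_dvd (hfr : Module.finrank κ E = n) (hn : 0 < n)
    (hκ1 : ∀ v : Place k κ, v.deg = 1) (hE1 : ∀ w : Place k E, w.deg = 1)
    (v : Place k κ) (hv : (n : ℤ) ∣ v.ord X.δ) {w : Place k E} (hw : w.restrict κ = v) :
    w.ramificationIndex κ = 1 := by
  classical
  obtain ⟨a, ha⟩ := hv
  have hn' : (n : ℤ) ≠ 0 := by exact_mod_cast hn.ne'
  -- the normalising factor
  obtain ⟨π, hπ⟩ := IsDiscreteValuationRing.exists_irreducible v.toValuationSubring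
  have hπ1 : v.ord (π : κ) = 1 := v.ord_coe_irreducible hπ
  have hπ0 : (π : κ) ≠ 0 := by
    intro h
    rw [h, Place.ord_zero] at hπ1
    exact zero_ne_one hπ1
  set g : κ := (π : κ) ^ (-a) with hg
  have hg0 : g ≠ 0 := zpow_ne_zero _ hπ0
  have hgord : v.ord g = -a := by
    rw [hg, v.ord_zpow, hπ1, mul_one]
  set δ' : κ := g ^ n * X.δ with hδ'
  have hδ'0 : δ' ≠ 0 := mul_ne_zero (pow_ne_zero _ hg0) X.hδ
  have hδ'ord : v.ord δ' = 0 := by
    have h1 : v.ord (g ^ n) = (n : ℤ) * v.ord g := by
      have := v.ord_zpow g (n : ℤ)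
      rwa [zpow_natCast] at this
    rw [hδ', v.ord_mul (pow_ne_zero _ hg0) X.hδ, h1, hgord, ha]
    ring
  -- the normalised generator
  set lam : E := X.u * algebraMap κ E g with hlam
  have hlamn : lam ^ n = algebraMap κ E δ' := by
    rw [hlam, mul_pow, X.hu, hδ', map_mul, map_pow]
    ring
  have hlam0 : lam ≠ 0 := by
    intro h
    rw [h, zero_pow hn.ne'] at hlamn
    exact hδ'0 ((map_eq_zero (algebraMap κ E)).mp hlamn.symm)
  have hlamord : w.ord lam = 0 := by
    have h1 : w.ord (lam ^ n) = (n : ℤ) * w.ord lam := by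
      have := w.ord_zpow lam (n : ℤ)
      rwa [zpow_natCast] at this
    rw [hlamn, Place.ord_restrict, hw, hδ'ord, mul_zero] at h1
    rcases mul_eq_zero.mp h1.symm with h | h
    · exact absurd h hn'
    · exact h
  obtain ⟨c₀, hc₀⟩ := exists_isValueAt w (hE1 w)
    (Place.mem_of_ord_nonneg w (le_of_eq hlamord.symm))
  have hc₀0 : c₀ ≠ 0 := by
    rintro rfl
    have h1 := (adicValuation_lt_one_iff w).mp (isValueAt_zero_iff.mp hc₀)
    rcases h1 with h1 | h1
    · exact hlam0 h1
    · rw [hlamord] at h1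
      exact lt_irrefl _ h1
  -- the conjugates
  set W : Fin n → Place k E := fun i => ((X.σ ^ (i : ℕ)).restrictScalars k) • w with hW
  have hWres : ∀ i, (W i).restrict κ = v := fun i => by
    rw [hW]
    show (((X.σ ^ (i : ℕ)).restrictScalars k) • w).restrict κ = v
    rw [restrict_smul, hw]
  have hWram : ∀ i, (W i).ramificationIndex κ = w.ramificationIndex κ := fun i =>
    ramificationIndex_smul _ w
  have hζ0 : ∀ i : ℕ, X.ζ ^ i ≠ 0 := fun i =>
    pow_ne_zero _ (X.hζ.ne_zero hn.ne')
  have hWval : ∀ i : Fin n, IsValueAt (W i) lam ((X.ζ ^ (i : ℕ))⁻¹ * c₀) := by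
    intro i
    have h1 := isValueAt_smul ((X.σ ^ (i : ℕ)).restrictScalars k) hc₀
    have h2 : ((X.σ ^ (i : ℕ)).restrictScalars k) lam = algebraMap k E (X.ζ ^ (i : ℕ)) * lam := by
      show (X.σ ^ (i : ℕ)) lam = _
      rw [hlam, map_mul, X.sigma_pow_u, (X.σ ^ (i : ℕ)).commutes]
      ring
    rw [h2] at h1
    have h3 := (isValueAt_algebraMap (W i) ((X.ζ ^ (i : ℕ))⁻¹)).mul h1
    have h4 : algebraMap k E ((X.ζ ^ (i : ℕ))⁻¹) * (algebraMap k E (X.ζ ^ (i : ℕ)) * lam) =
        lam := by
      rw [← mul_assoc, ← map_mul, inv_mul_cancel₀ (hζ0 _), map_one, one_mul]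
    rwa [h4] at h3
  have hWinj : Function.Injective W := by
    intro i j hij
    have h1 := hWval i
    rw [hij] at h1
    have h2 := h1.unique (hWval j)
    have h3 : X.ζ ^ (i : ℕ) = X.ζ ^ (j : ℕ) := by
      have := mul_right_cancel₀ hc₀0 h2
      exact inv_injective this
    exact Fin.ext (X.hζ.pow_inj i.2 j.2 h3)
  -- counting
  have hsum := sum_ramificationIndex (k := k) (κ := κ) (E := E) hfr hκ1 hE1 v
  have hsub : Finset.univ.image W ⊆ v.fiber E := by
    intro x hx
    obtain ⟨i, -, rfl⟩ := Finset.mem_image.mp hx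
    exact Place.mem_fiber.mpr (hWres i)
  have h2 : ∑ x ∈ Finset.univ.image W, (x.ramificationIndex κ : ℤ) ≤
      ∑ x ∈ v.fiber E, (x.ramificationIndex κ : ℤ) :=
    Finset.sum_le_sum_of_subset_of_nonneg hsub (fun _ _ _ => by positivity)
  rw [Finset.sum_image (fun i _ j _ h => hWinj h), hsum] at h2
  simp only [hWram, Finset.sum_const, Finset.card_univ, Fintype.card_fin, nsmul_eq_mul] at h2
  have hpos : 0 < w.ramificationIndex κ := w.ramificationIndex_pos (F := κ)
  have hn2 : (0 : ℤ) < n := by exact_mod_cast hn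
  have h3 : (w.ramificationIndex κ : ℤ) ≤ 1 := by
    by_contra hlt
    push Not at hlt
    nlinarith
  have h4 : (1 : ℤ) ≤ (w.ramificationIndex κ : ℤ) := by exact_mod_cast hpos
  have h5 : (w.ramificationIndex κ : ℤ) = 1 := le_antisymm h3 h4
  exact_mod_cast h5

/-- **The field `ord_map` of a cover sheet** at a place over a point where `n ∣ ord δ`. -/
theorem ord_algebraMap_of_dvd (hfr : Module.finrank κ E = n) (hn : 0 < n)
    (hκ1 : ∀ v : Place k κ, v.deg = 1) (hE1 : ∀ w : Place k E, w.deg = 1)
    (v : Place k κ) (hv : (n : ℤ) ∣ v.ord X.δ) {w : Place k E} (hw : w.restrict κ = v) (f : κ) :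
    w.ord (algebraMap κ E f) = v.ord f := by
  rw [Place.ord_restrict, ramificationIndex_eq_one_of_dvd X hfr hn hκ1 hE1 v hv hw, hw,
    Nat.cast_one, one_mul]

end Fermat.Agent.BR3.CuspMid
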