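import Fermat.Agent.BR3.KummerGenus.MidInst
import Fermat.Agent.BR.ModUnitAL
import Fermat.Agent.BR3.CuspMid.LevelOne
import Fermat.Agent.BR3.CuspMid.Unram

/-!
# Program C, node (SC4): the middle components are unramified over the cusps of `can`

`F̃_M = modularFunctionFieldFullC k_B M` (the function field of `X₀(M)` over `k_B`, = the residue
field of `can`), `FMid M B = F̃_M(θ j̃)` (the residue field of the middle components).  A CUSP of
`can` is a place `Q'` of `F̃_M` with `ord_{Q'} j̃ < 0`.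

* `order_thetaL_jqModC` : `θ j̃ = - s⁻¹ + …` has `s`-adic order `-1`;
* `TK_mem_level_one`, `thetaL_pow_mem_level_one` : `T̄ = Δ̃(s)/Δ̃(s^q)` and `(θ j̃)^{q-1}` are
  functions of LEVEL ONE (`∈ k_B(j̃)`), by `res1_TB` and `MidInst.thetaL_pow_mem` at `M = 1`;
* `ord_gammaMid_of_cusp` : `ord_{Q'} (θ j̃)^{q-1} = (q - 1) ord_{Q'} j̃` at a cusp;
* `ord_deltaMid_of_cusp` : `ord_{Q'} δ = fMid · ord_{Q'} j̃` at a cusp (`δ = (θ j̃)^{fMid}`);
* **`ord_map_of_cusp`** : `ord_{Q''} f = ord_{Q'} f` for `f ∈ F̃_M`, for every place `Q''` of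
  `FMid M B` over a cusp `Q'` (the field `ord_map` of the mid sheets at the cusps);
* `ramificationIndex_eq_one_of_cusp`.
-/

set_option autoImplicit false
set_option linter.style.haveILetI false
set_option linter.unusedSectionVars false

noncomputable section

set_option synthInstance.maxHeartbeats 400000

namespace Fermat.Agent.BR3.CuspMid

open ModularCurve AlgebraicCurve HahnSeries Polynomial Fermat.Agent.X0 Fermat.Agent.Val
open Fermat.Agent.BR.TwoVal Fermat.Agent.BR.TwoValInst Fermat.Agent.BR3.FibreProd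
open Fermat.Agent.BR3.IgSq Fermat.Agent.BR.ModUnit Fermat.Agent.BR3.KummerGenus Fermat.Agent.Red
open Fermat.Agent.BR3.KummerGenus.MidInst

/-! ### The `s`-adic order of `θ j̃` -/

section Laurent

variable {k : Type*} [Field k]

theorem order_thetaL_jqModC : (thetaL k (jqModC k)).order = -1 := by
  have hc : (thetaL k (jqModC k)).coeff (-1) = -1 := by
    rw [coeff_thetaL, coeff_jqModC_neg_one]
    simp
  have hne : thetaL k (jqModC k) ≠ 0 := by
    intro h
    rw [h, HahnSeries.coeff_zero] at hc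
    exact one_ne_zero (neg_eq_zero.mp hc.symm)
  apply le_antisymm
  · apply HahnSeries.order_le_of_coeff_ne_zero
    rw [hc]
    exact neg_ne_zero.mpr one_ne_zero
  · by_contra hlt
    push Not at hlt
    apply hne
    apply HahnSeries.coeff_order_eq_zero.1
    rw [coeff_thetaL, coeff_jqModC_of_lt k hlt, mul_zero]

end Laurent

variable {M q : ℕ} [NeZero M] [hq : Fact q.Prime]
variable (B : ValuationSubring (AlgebraicClosure ℚ)) (hB : B.LiesOverPrime q) (hqM : ¬ q ∣ M)

local notation "kB" => IsLocalRing.ResidueField B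
local notation "FtM" => modularFunctionFieldFullC (IsLocalRing.ResidueField B) M

/-- (shortcut instances) -/
local instance (priority := 100000) instAlgKFtCO : Algebra kB FtM := inferInstance
local instance (priority := 100000) instAlgKFMidCO : Algebra kB (FMid M B) := inferInstance
local instance (priority := 100000) instAlgFtFMidCO : Algebra FtM (FMid M B) := inferInstance
local instance (priority := 100000) instTowerMidCO : IsScalarTower kB FtM (FMid M B) :=
  inferInstance

/-! ### Functions of level one -/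

include hB in
theorem not_dvd_one : ¬ q ∣ 1 := fun h => hq.out.one_lt.ne' (Nat.dvd_one.mp h)

include hB in
/-- `T̄ = Δ̃(s)/Δ̃(s^q)` is a function of level one. -/
theorem TK_mem_level_one : TK kB q ∈ modularFunctionFieldFullC kB 1 := by
  have h1 := res1_TB 1 q B hB
  rw [← h1]
  exact (mem_kappaCan_iff_mem_fullC (M := 1) B hB (not_dvd_one B hB)).1
    (res1_mem_kappaCan B hB _)

include hB in
/-- `(θ j̃)^{q-1}` is a function of level one. -/
theorem thetaL_pow_mem_level_one :
    thetaL kB (jqModC kB) ^ (q - 1) ∈ modularFunctionFieldFullC kB 1 :=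
  thetaL_pow_mem (M := 1) B hB (not_dvd_one B hB)

/-! ### The orders of `γ` and `δ` at the cusps -/

include hB hqM in
/-- **`ord_{Q'} (θ j̃)^{q-1} = (q - 1) · ord_{Q'} j̃` at a cusp.** -/
theorem ord_gammaMid_of_cusp (Q' : Place kB FtM) (hQ' : Q'.ord (jFullC kB M) < 0) :
    Q'.ord (gammaMid B hB hqM) = ((q - 1 : ℕ) : ℤ) * Q'.ord (jFullC kB M) := by
  have hj0 : jFullC kB M ≠ 0 := by
    intro h
    rw [h, Place.ord_zero] at hQ'
    exact lt_irrefl _ hQ'
  have hγ0 : gammaMid B hB hqM ≠ 0 := by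
    intro h
    have h1 := congrArg (fun x : FtM => (x : LaurentSeries kB)) h
    exact pow_ne_zero _ (thetaL_jqModC_ne_zero B) h1
  -- `f = γ / j̃^{q-1}` is of level one and of `s`-adic order `0`
  set f : FtM := gammaMid B hB hqM * (jFullC kB M ^ (q - 1))⁻¹ with hf
  have hfne : f ≠ 0 := mul_ne_zero hγ0 (inv_ne_zero (pow_ne_zero _ hj0))
  have hfco : (f : LaurentSeries kB) =
      thetaL kB (jqModC kB) ^ (q - 1) * (jqModC kB ^ (q - 1))⁻¹ := rfl
  have hf1 : (f : LaurentSeries kB) ∈ modularFunctionFieldFullC kB 1 := by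
    rw [hfco]
    exact mul_mem (thetaL_pow_mem_level_one B hB)
      (inv_mem (pow_mem (jqModC_mem_full kB 1) _))
  have hf0 : (f : LaurentSeries kB).order = 0 := by
    have hjne : jqModC kB ^ (q - 1) ≠ 0 := pow_ne_zero _ (jqModC_ne_zero_of_nontrivial kB)
    have h1 : (f : LaurentSeries kB) * jqModC kB ^ (q - 1) = thetaL kB (jqModC kB) ^ (q - 1) := by
      rw [hfco, mul_assoc, inv_mul_cancel₀ hjne, mul_one]
    have hfne' : (f : LaurentSeries kB) ≠ 0 := fun h => hfne (Subtype.ext h)
    have h2 := congrArg HahnSeries.order h1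
    rw [HahnSeries.order_mul hfne' hjne, HahnSeries.order_pow, HahnSeries.order_pow,
      order_thetaL_jqModC, order_jqModC_eq] at h2
    linarith
  have h0 := ord_eq_zero_of_mem_level_one Q' hQ' hf1 hf0 hfne
  have h3 : gammaMid B hB hqM = f * jFullC kB M ^ (q - 1) := by
    rw [hf, mul_assoc, inv_mul_cancel₀ (pow_ne_zero _ hj0), mul_one]
  have h4 : Q'.ord (jFullC kB M ^ (q - 1)) = ((q - 1 : ℕ) : ℤ) * Q'.ord (jFullC kB M) := by
    have := Q'.ord_zpow (jFullC kB M) ((q - 1 : ℕ) : ℤ)
    rwa [zpow_natCast] at this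
  rw [h3, Q'.ord_mul hfne (pow_ne_zero _ hj0), h0, zero_add, h4]

include hB hqM in
/-- **`ord_{Q'} δ = fMid · ord_{Q'} j̃` at a cusp** (`δ = (θ j̃)^{fMid}`). -/
theorem ord_deltaMid_of_cusp (Q' : Place kB FtM) (hQ' : Q'.ord (jFullC kB M) < 0) :
    Q'.ord (deltaMid B hB hqM) = (fMid M B hB : ℤ) * Q'.ord (jFullC kB M) := by
  have h1 := ord_gammaMid_of_cusp B hB hqM Q' hQ'
  have hdvd := fMid_dvd' B hB hqM
  obtain ⟨N, hN⟩ := hdvd
  have hfpos := fMid_pos B hB hqM
  have hq1 : 0 < q - 1 := by have := hq.out.two_le; omega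
  have hNpos : 0 < N := by
    rcases Nat.eq_zero_or_pos N with h | h
    · rw [h, mul_zero] at hN; omega
    · exact h
  have hdiv : (q - 1) / fMid M B hB = N := by
    rw [hN, Nat.mul_div_cancel_left _ hfpos]
  have h2 : Q'.ord (deltaMid B hB hqM ^ N) = (N : ℤ) * Q'.ord (deltaMid B hB hqM) := by
    have := Q'.ord_zpow (deltaMid B hB hqM) (N : ℤ)
    rwa [zpow_natCast] at this
  have h3 := deltaMid_pow B hB hqM
  rw [hdiv] at h3
  rw [h3, h1, hN] at h2
  push_cast at h2
  have hN' : (N : ℤ) ≠ 0 := by exact_mod_cast hNpos.ne'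
  have h4 : (N : ℤ) * ((fMid M B hB : ℤ) * Q'.ord (jFullC kB M)) =
      (N : ℤ) * Q'.ord (deltaMid B hB hqM) := by
    rw [← h2]; ring
  exact (mul_left_cancel₀ hN' h4).symm

/-! ### Unramifiedness over the cusps -/

include hB hqM in
/-- **The middle components are unramified over the cusps of `can`.** -/
theorem ramificationIndex_eq_one_of_cusp [FiniteDimensional FtM (FMid M B)] (Q' : Place kB FtM)
    (hQ' : Q'.ord (jFullC kB M) < 0) {Q'' : Place kB (FMid M B)} (hQ'' : Q''.restrict FtM = Q') :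
    Q''.ramificationIndex FtM = 1 := by
  have hκ := riemannPkg_FtM B hB hqM
  have hE := riemannPkg_FMid B hB hqM
  haveI := hκ.principal
  haveI := hE.principal
  haveI : FundamentalIdentity kB FtM (FMid M B) :=
    fundamentalIdentity_of_kummer (midDatum B hB hqM) hE (fMid_natCast_ne_zero B hB hqM)
  refine ramificationIndex_eq_one_of_dvd (midDatum B hB hqM) (finrank_FMid B hB hqM)
    (fMid_pos B hB hqM) hκ.deg_one hE.deg_one Q' ?_ hQ''
  rw [midDatum_δ, ord_deltaMid_of_cusp B hB hqM Q' hQ']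
  exact Dvd.intro _ rfl

include hB hqM in
/-- **The field `ord_map` of the mid sheets at the cusps.** -/
theorem ord_map_of_cusp [FiniteDimensional FtM (FMid M B)] (Q' : Place kB FtM)
    (hQ' : Q'.ord (jFullC kB M) < 0) {Q'' : Place kB (FMid M B)} (hQ'' : Q''.restrict FtM = Q')
    (f : FtM) : Q''.ord (algebraMap FtM (FMid M B) f) = Q'.ord f := by
  rw [Place.ord_restrict, ramificationIndex_eq_one_of_cusp B hB hqM Q' hQ' hQ'', hQ'',
    Nat.cast_one, one_mul]

end Fermat.Agent.BR3.CuspMid
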