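import Fermat.Agent.BR3.CuspMid.MidGeneric
import Fermat.Agent.BR3.CuspMid.CuspOrd

/-!
# Program C, node (SC4): the generator of the middle sheets at the cusps and its residue

At a cusp of `can` the generator of the middle sheets is (helper6's `thetaGen`, `BR3/FibreProdMidGH`)

  `θ_c = thetaGen (T'^(q+1)) j (j(s^q)^q) z = β₂(T')^(q+1) · (j(s^{q²}) - j) / ((z - 1) · α₂ j(s^q)^q)`,

`T' = q^12 Δ(s^q)/Δ(s)`, `z = ζ^{b₀+1}`: it is regular at the cusps of `X₀(M q²)` over the cusps of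
`can` and at all non-cuspidal points where `j(s^q) ≠ 0`, and its residue on the middle valuation
`w₂ b₀` is

  `c₁ = T̄^(q+1) · θ j̃ · j̃^(-q²) = (T̄ j̃^(1-q))^(q+1) · (θ j̃ / j̃)`,

a function whose `(q-1)`-st power is of LEVEL ONE and of `s`-adic order `0`: a unit at every
place of `FMid M B` over a cusp of `can`.

* `rCusp_mem_O2`, `rCusp_mul_mem_nonunits_O1`, `jBar_mem_O2'`, `hCusp_inv_mem_O1` : the hypotheses
  `hr2 hr1 hx1 hx2 hh` of `MidGeneric.exists_coverSheet_mid_thetaGen`;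
* `cCusp`, `exists_resw2_thetaCusp` : the residue;
* `cCusp_pow_mem_level_one`, `order_cCusp` ;
* **`exists_value_thetaCusp`** : at every place `Q''` of `FMid M B` over a cusp `Q'` of `can` there
  is `u : B` with `ū ≠ 0` and `θ̄_c (Q'') = ū` (the inputs `hu0`, `hval`);
* **`exists_coverSheet_mid_cusp`** : the sheet of `mid = w₂ b₀` at `Q''` from the two chart-ring
  inputs `coeff_mem`, `hlift` alone.
-/

set_option autoImplicit false
set_option linter.style.haveILetI false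
set_option linter.unusedSectionVars false

noncomputable section

/- S36 build-time patch: file-local shortcut instances. They only shorten instance search;
each is the instance that the search finds anyway (reducible, same terms after unfolding). -/
local instance (priority := 100000) Fermat.Agent.BR3.FastInst.instAlgFullC_CuspMid_CuspResidue
    {k : Type*} [Field k] (N : ℕ) :
    Algebra k ↥(ModularCurve.modularFunctionFieldFullC k N) := inferInstance
local instance (priority := 100000) Fermat.Agent.BR3.FastInst.instFieldFullC_CuspMid_CuspResidue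
    {k : Type*} [Field k] (N : ℕ) :
    Field ↥(ModularCurve.modularFunctionFieldFullC k N) := inferInstance
local instance (priority := 100000) Fermat.Agent.BR3.FastInst.instAlgLaurent_CuspMid_CuspResidue
    {k : Type*} [Field k] : Algebra k (LaurentSeries k) := inferInstance


set_option synthInstance.maxHeartbeats 400000

namespace Fermat.Agent.BR3.CuspMid

open ModularCurve AlgebraicCurve HahnSeries Polynomial Fermat.Agent.X0 Fermat.Agent.Val
open Fermat.Agent.Hecke.AL Fermat.Agent.BR.TwoVal Fermat.Agent.BR.ResGen Fermat.Agent.Red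
open Fermat.Agent.BR.TwoValInst Fermat.Agent.BR3.FibreProd Fermat.Agent.BR.ConstRedTwo
open Fermat.Agent.BR3.CoverK Fermat.Agent.BR3.CoverSheetInf Fermat.Agent.BR.S0
open Fermat.Agent.BR3.IgSq Fermat.Agent.BR.ModUnit Fermat.Agent.BR3.KummerGenus
open Fermat.Agent.BR3.KummerGenus.MidInst

variable {M q : ℕ} [NeZero M] [hq : Fact q.Prime]
variable (B : ValuationSubring (AlgebraicClosure ℚ)) (hB : B.LiesOverPrime q) (hqM : ¬ q ∣ M)
variable {ζ : Kbˣ} (hζ : IsPrimitiveRoot ζ q)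

local notation "kB" => IsLocalRing.ResidueField B
local notation "FtM" => modularFunctionFieldFullC (IsLocalRing.ResidueField B) M

/-- (shortcut instances) -/
local instance (priority := 100000) instAlgKFtCR : Algebra kB FtM := inferInstance
local instance (priority := 100000) instAlgKFMidCR : Algebra kB (FMid M B) := inferInstance
local instance (priority := 100000) instAlgFtFMidCR : Algebra FtM (FMid M B) := inferInstance
local instance (priority := 100000) instTowerMidCR : IsScalarTower kB FtM (FMid M B) :=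
  inferInstance

/-! ### Inverses in `O1` -/

/-- an element of `O1` with nonzero residue is a unit of `O1` -/
theorem inv_mem_O1_of_res1_ne_zero {y : Fb (M * q)} (hy : y ∈ O1 M B hB)
    (h : res1 M B hB ⟨y, hy⟩ ≠ 0) :
    ∃ hi : y⁻¹ ∈ O1 M B hB, res1 M B hB ⟨y⁻¹, hi⟩ = (res1 M B hB ⟨y, hy⟩)⁻¹ := by
  have hnu : y ∉ (O1 M B hB).nonunits := fun hn =>
    h ((Fermat.Agent.BR.TwoValInst.mem_nonunits_O1_iff B hB hy).1 hn)
  have hy0 : y ≠ 0 := by
    rintro rfl
    exact hnu ((ValuationSubring.mem_nonunits_iff (A := O1 M B hB)).2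
      (by rw [map_zero]; exact zero_lt_one))
  have hv1 : (O1 M B hB).valuation y = 1 := by
    have h1 : (O1 M B hB).valuation y ≤ 1 := ((O1 M B hB).valuation_le_one_iff y).2 hy
    have h2 : ¬ (O1 M B hB).valuation y < 1 := fun hlt =>
      hnu ((ValuationSubring.mem_nonunits_iff (A := O1 M B hB)).2 hlt)
    exact le_antisymm h1 (not_lt.1 h2)
  have hi : y⁻¹ ∈ O1 M B hB := by
    rw [← (O1 M B hB).valuation_le_one_iff, map_inv₀, hv1, inv_one]
  refine ⟨hi, ?_⟩
  have h3 : (⟨y⁻¹, hi⟩ : O1 M B hB) * ⟨y, hy⟩ = 1 := Subtype.ext (inv_mul_cancel₀ hy0)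
  have h4 := congrArg (res1 M B hB) h3
  rw [map_mul, map_one] at h4
  exact eq_inv_of_mul_eq_one_left h4

/-! ### The hypotheses on `(r, x, h) = (T'^(q+1), j, j(s^q)^q)` -/

theorem rCusp_mem_O2 : TB' M q ^ (q + 1) ∈ O2 B hB hqM :=
  pow_mem (TB'_mem_O2 M q B hB hqM) _

include hζ in
theorem rCusp_mul_mem_nonunits_O1 {b : ℕ} (hb : b < q - 1) :
    TB' M q ^ (q + 1) * algebraMap Kb (Fb (M * q)) ((((ζ ^ (b + 1) : Kbˣ) : Kb)) - 1)⁻¹ ∈
      (O1 M B hB).nonunits := by
  have e : TB' M q ^ (q + 1) * algebraMap Kb (Fb (M * q)) ((((ζ ^ (b + 1) : Kbˣ) : Kb)) - 1)⁻¹ =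
      (TB' M q * algebraMap Kb (Fb (M * q)) ((((ζ ^ (b + 1) : Kbˣ) : Kb)) - 1)⁻¹) *
        TB' M q ^ q := by
    rw [pow_succ]
    ring
  rw [e]
  exact mul_mem_nonunits_right _ (TB'_mul_mem_nonunits_O1 B hB hζ hb)
    (pow_mem (TB'_mem_O1 M q B hB) q)

theorem jBar_mem_O2' : jBar (M * q) ∈ O2 B hB hqM := by
  rw [mem_O2_iff]
  have h : Wq hqM (jBar (M * q)) = jq' M q := by
    rw [← MidBeta.Wq_jq' (hqM := hqM), Wq_Wq]
  rw [h]
  exact jq'_mem_O1 B hB

theorem res1_jq'_ne_zero : res1 M B hB ⟨jq' M q, jq'_mem_O1 B hB⟩ ≠ 0 := by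
  rw [res1_jq']
  exact pow_ne_zero _ (jqModC_ne_zero_of_nontrivial kB)

theorem exists_res1_hCusp_inv :
    ∃ hi : (jq' M q ^ q)⁻¹ ∈ O1 M B hB,
      res1 M B hB ⟨(jq' M q ^ q)⁻¹, hi⟩ = (jqModC kB ^ (q * q))⁻¹ := by
  have hmem : jq' M q ^ q ∈ O1 M B hB := pow_mem (jq'_mem_O1 B hB) q
  have hres : res1 M B hB ⟨jq' M q ^ q, hmem⟩ = jqModC kB ^ (q * q) := by
    have e : (⟨jq' M q ^ q, hmem⟩ : O1 M B hB) = ⟨jq' M q, jq'_mem_O1 B hB⟩ ^ q := rfl
    rw [e, map_pow, res1_jq', ← pow_mul]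
  have hne : res1 M B hB ⟨jq' M q ^ q, hmem⟩ ≠ 0 := by
    rw [hres]
    exact pow_ne_zero _ (jqModC_ne_zero_of_nontrivial kB)
  obtain ⟨hi, hr⟩ := inv_mem_O1_of_res1_ne_zero B hB hmem hne
  exact ⟨hi, by rw [hr, hres]⟩

theorem hCusp_inv_mem_O1 : (jq' M q ^ q)⁻¹ ∈ O1 M B hB := (exists_res1_hCusp_inv B hB).1

/-! ### The residue -/

/-- **The residue of the cusp generator on the middle valuations**:
`c₁ = T̄^(q+1) · θ j̃ · j̃^(-q²)`. -/
def cCusp : LaurentSeries kB :=
  TK kB q ^ (q + 1) * thetaL kB (jqModC kB) * (jqModC kB ^ (q * q))⁻¹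

/-- the cusp generator -/
def thetaCusp (z : Kb) : Fb (M * q * q) :=
  thetaGen hqM (TB' M q ^ (q + 1)) (jBar (M * q)) (jq' M q ^ q) z

include hB in
/-- **The residue of the cusp generator on `w₂ b₀`.** -/
theorem exists_resw2_thetaCusp {b : ℕ} (hb : b < q - 1) :
    ∃ hmem : thetaCusp (M := M) hqM ((ζ ^ (b + 1) : Kbˣ) : Kb) ∈ w2 B hB hqM hζ hb,
      resw2 B hB hqM hζ hb ⟨_, hmem⟩ = cCusp (q := q) B := by
  obtain ⟨hmem, hres⟩ := exists_resw2_thetaGen hqM B hB hζ (b := b) (rCusp_mem_O2 B hB hqM)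
    (jBar_mem_O1 B hB) (hCusp_inv_mem_O1 B hB) hb 1 (pow_one _).symm
  refine ⟨hmem, ?_⟩
  have e : (⟨TB' M q ^ (q + 1), rCusp_mem_O2 B hB hqM⟩ : O2 B hB hqM) =
      ⟨TB' M q, TB'_mem_O2 M q B hB hqM⟩ ^ (q + 1) := rfl
  show resw2 B hB hqM hζ hb ⟨thetaGen hqM (TB' M q ^ (q + 1)) (jBar (M * q)) (jq' M q ^ q)
    ((ζ ^ (b + 1) : Kbˣ) : Kb), hmem⟩ = _
  rw [hres, e, map_pow, res2_TB', res1_jBar, (exists_res1_hCusp_inv B hB).2, Nat.cast_one,
    map_one, mul_one, cCusp]

/-! ### Level one and order -/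

include hB in
/-- `c₁^{q-1}` is a function of level one. -/
theorem cCusp_pow_mem_level_one :
    cCusp (q := q) B ^ (q - 1) ∈ modularFunctionFieldFullC kB 1 := by
  rw [cCusp, mul_pow, mul_pow]
  refine mul_mem (mul_mem (pow_mem (pow_mem (TK_mem_level_one B hB) _) _)
    (thetaL_pow_mem_level_one B hB)) (pow_mem (inv_mem (pow_mem (jqModC_mem_full kB 1) _)) _)

include hB in
theorem cCusp_ne_zero : cCusp (q := q) B ≠ 0 := by
  haveI : NeZero q := ⟨hq.out.ne_zero⟩
  rw [cCusp]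
  exact mul_ne_zero (mul_ne_zero (pow_ne_zero _ (TK_ne_zero kB q)) (thetaL_jqModC_ne_zero B))
    (inv_ne_zero (pow_ne_zero _ (jqModC_ne_zero_of_nontrivial kB)))

include hB in
/-- `c₁` has `s`-adic order `0`. -/
theorem order_cCusp : (cCusp (q := q) B).order = 0 := by
  haveI : NeZero q := ⟨hq.out.ne_zero⟩
  have hjne : jqModC kB ^ (q * q) ≠ 0 := pow_ne_zero _ (jqModC_ne_zero_of_nontrivial kB)
  have hT : TK kB q ^ (q + 1) ≠ 0 := pow_ne_zero _ (TK_ne_zero kB q)
  have h1 : cCusp (q := q) B * jqModC kB ^ (q * q) = TK kB q ^ (q + 1) * thetaL kB (jqModC kB) := by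
    rw [cCusp, mul_assoc, inv_mul_cancel₀ hjne, mul_one]
  have h2 := congrArg HahnSeries.order h1
  rw [HahnSeries.order_mul (cCusp_ne_zero B hB) hjne,
    HahnSeries.order_mul hT (thetaL_jqModC_ne_zero B), HahnSeries.order_pow, HahnSeries.order_pow,
    order_TK, order_thetaL_jqModC, order_jqModC_eq] at h2
  have hq1 : 1 ≤ q := hq.out.one_le
  simp only [nsmul_eq_mul] at h2
  push_cast at h2
  nlinarith

/-! ### The value at the points over the cusps -/

include hB hqM in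
/-- **`θ̄_c` is a unit at every place of `FMid M B` over a cusp of `can`.** -/
theorem ord_eq_zero_of_cusp [FiniteDimensional FtM (FMid M B)] (Q' : Place kB FtM)
    (hQ' : Q'.ord (jFullC kB M) < 0) {Q'' : Place kB (FMid M B)} (hQ'' : Q''.restrict FtM = Q')
    {ρ : FMid M B} (hρ : (ρ : LaurentSeries kB) = cCusp (q := q) B) : Q''.ord ρ = 0 := by
  have hmemM : cCusp (q := q) B ^ (q - 1) ∈ FtM :=
    full_degeneracyC_le kB (one_dvd M) (cCusp_pow_mem_level_one B hB)
  set cc : FtM := ⟨cCusp (q := q) B ^ (q - 1), hmemM⟩ with hcc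
  have hccne : cc ≠ 0 := by
    intro h
    have h1 := congrArg (fun x : FtM => (x : LaurentSeries kB)) h
    exact pow_ne_zero _ (cCusp_ne_zero B hB) h1
  have h0 : Q'.ord cc = 0 := by
    apply ord_eq_zero_of_mem_level_one Q' hQ' (f := cc) (cCusp_pow_mem_level_one B hB) _ hccne
    show (cCusp (q := q) B ^ (q - 1)).order = 0
    rw [HahnSeries.order_pow, order_cCusp B hB, smul_zero]
  have h1 : algebraMap FtM (FMid M B) cc = ρ ^ (q - 1) := by
    apply Subtype.ext
    show (cc : LaurentSeries kB) = (ρ : LaurentSeries kB) ^ (q - 1)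
    rw [hρ]
  have h2 : Q''.ord (algebraMap FtM (FMid M B) cc) = 0 := by
    rw [Place.ord_restrict, hQ'', h0, mul_zero]
  rw [h1] at h2
  have h3 : Q''.ord (ρ ^ (q - 1)) = ((q - 1 : ℕ) : ℤ) * Q''.ord ρ := by
    have := Q''.ord_zpow ρ ((q - 1 : ℕ) : ℤ)
    rwa [zpow_natCast] at this
  rw [h3] at h2
  have hq1 : 0 < q - 1 := by have := hq.out.two_le; omega
  rcases mul_eq_zero.mp h2 with h | h
  · exact absurd (by exact_mod_cast h) hq1.ne'
  · exact h

include hB hqM in
/-- **The value of `θ̄_c` at the places over the cusps** (the inputs `hu0`, `hval` of the generic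
mid sheet). -/
theorem exists_value_thetaCusp [FiniteDimensional FtM (FMid M B)] (Q' : Place kB FtM)
    (hQ' : Q'.ord (jFullC kB M) < 0) {Q'' : Place kB (FMid M B)} (hQ'' : Q''.restrict FtM = Q')
    {b : ℕ} (hb : b < q - 1) :
    ∃ u : B, IsLocalRing.residue B u ≠ 0 ∧
      ∀ hmem : thetaCusp (M := M) hqM ((ζ ^ (b + 1) : Kbˣ) : Kb) ∈ w2 B hB hqM hζ hb,
        IsValueAt Q'' (resMid B hB hqM hζ hb ⟨_, hmem⟩) (IsLocalRing.residue B u) := by
  obtain ⟨hmem0, hres⟩ := exists_resw2_thetaCusp B hB hqM hζ hb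
  set ρ : FMid M B := resMid B hB hqM hζ hb ⟨_, hmem0⟩ with hρ
  have hρco : (ρ : LaurentSeries kB) = cCusp (q := q) B := by
    rw [hρ, coe_resMid, hres]
  have hord := ord_eq_zero_of_cusp B hB hqM Q' hQ' hQ'' hρco
  have hρne : ρ ≠ 0 := by
    intro h
    rw [h] at hρco
    exact cCusp_ne_zero B hB hρco.symm
  obtain ⟨c, hc⟩ := exists_isValueAt Q'' ((riemannPkg_FMid B hB hqM).deg_one Q'')
    (Place.mem_of_ord_nonneg Q'' (le_of_eq hord.symm))
  have hc0 : c ≠ 0 := by
    rintro rfl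
    rcases (adicValuation_lt_one_iff Q'').mp (isValueAt_zero_iff.mp hc) with h | h
    · exact hρne h
    · rw [hord] at h
      exact lt_irrefl _ h
  obtain ⟨u, hu⟩ := IsLocalRing.residue_surjective (R := B) c
  refine ⟨u, by rw [hu]; exact hc0, fun hmem => ?_⟩
  rw [hu]
  exact hc

/-! ### The sheet -/

set_option maxHeartbeats 2000000 in
include hB hqM in
/-- **The sheet of the middle component `mid = w₂ b₀` at a point `Q''` over a cusp `Q'` of `can`
along `α₂`**, for the local ring of a smooth chart `C` at `Q'`, from the two chart-ring inputs alone: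
`coeff_mem` (the minimal polynomial of the cusp generator has coefficients in `C.R`) and `hlift`
(functions regular at `Q'` lift to `C.R`). -/
theorem exists_coverSheet_mid_cusp [FiniteDimensional FtM (FMid M B)] (b₀ : Fin (q - 1))
    (Q' : Place kB FtM) (hQ' : Q'.ord (jFullC kB M) < 0) {Q'' : Place kB (FMid M B)}
    (hQ'' : Q''.restrict FtM = Q') {T' : Set (Place Kb (Fb (M * q)))}
    (C : SmoothChart B (constRedW1 B hB hqM).O (constRedW1 B hB hqM).res Q' T')
    (coeff_mem : letI := algebraAlong (alpha2 M q)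
      ∀ n, (minpoly (Fb (M * q))
        (thetaCusp (M := M) hqM ((ζ ^ ((b₀ : ℕ) + 1) : Kbˣ) : Kb))).coeff n ∈ C.R)
    (hlift : ∀ f : FtM, 0 ≤ Q'.ord f →
      ∃ y ∈ C.R, ∃ hy : y ∈ (constRedW1 B hB hqM).O, (constRedW1 B hB hqM).res ⟨y, hy⟩ = f) :
    letI := algebraAlong (alpha2 M q)
    haveI := isScalarTower_along (alpha2 M q)
    ∃ (u : B) (ψ ψc : (Fb (M * q))[X]), IsLocalRing.residue B u ≠ 0 ∧
      CoverSheet B (IsLocalRing.residue B) (constRedW1 B hB hqM).O (constRedW1 B hB hqM).res Q'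
        (constRedMid B hB hqM hζ b₀.2).O (constRedMid B hB hqM hζ b₀.2).res Q'' C.R
        (thetaCusp (M := M) hqM ((ζ ^ ((b₀ : ℕ) + 1) : Kbˣ) : Kb))
        (minpoly (Fb (M * q)) (thetaCusp (M := M) hqM ((ζ ^ ((b₀ : ℕ) + 1) : Kbˣ) : Kb)))
        ψ ψc u := by
  letI := algebraAlong (alpha2 M q)
  haveI := isScalarTower_along (alpha2 M q)
  obtain ⟨u, hu0, hval⟩ := exists_value_thetaCusp B hB hqM hζ Q' hQ' hQ'' b₀.2
  obtain ⟨ψ, ψc, hsheet⟩ := exists_coverSheet_mid_thetaGen B hB hqM hζ b₀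
    (rCusp_mem_O2 B hB hqM) (rCusp_mul_mem_nonunits_O1 B hB hζ b₀.2) (jBar_mem_O1 B hB)
    (jBar_mem_O2' B hB hqM) (hCusp_inv_mem_O1 B hB) Q' Q''
    (fun f => ord_map_of_cusp B hB hqM Q' hQ' hQ'' f) C coeff_mem hlift u hu0 hval
  exact ⟨u, ψ, ψc, hu0, hsheet⟩

end Fermat.Agent.BR3.CuspMid
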