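import Fermat.Agent.BR3.CuspMid.CuspResidue
import Fermat.Agent.BR3.CuspSheet.Inf

/-!
# Program C, node (SC4): the value of a middle generator at the points over the cusps — generic
form, and the instance for the generator `θ = (1 - θ∞)^e · (j/j(s^{q²}) - 1)/(z - 1)`

The generator `thetaGen (T'^(q+1)) j (j(s^q)^q)` of `CuspResidue` has no accessible integrality on
the cusp tubes in characteristic `0` (`coeff_mem`); helper2's replacement is

  `r = (1 - hSepInf M q)^e`, `x = h = j⁻¹`      (`hSepInf = j(s^q)/j^q`, `e = 1` or `2`),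

whose residue on the middle valuations is

  `c = (1 - j̃^(1-q²))^e · θ(1/j̃) · j̃ = -(1 - j̃^(1-q²))^e · θ j̃ / j̃`,

again with `c^(q-1)` of LEVEL ONE and of `s`-adic order `0`.

* `ord_eq_zero_of_cusp_of_level_one`, `exists_value_of_cusp` : GENERIC — a function of `FMid M B`
  whose `(q-1)`-st power is of level one and of `s`-adic order `0` is a unit at every place over a
  cusp of `can`, and has a value there;
* `exists_coverSheet_mid_thetaGen_cusp` : the sheet for a generic `(r, x, h)`;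
* `rInf`, `thetaCuspInf`, `cInf`, `cInf_pow_mem_level_one`, `order_cInf` : the instance;
* **`exists_coverSheet_mid_cuspInf`** : the sheet for the new generator, from `hr1`, `coeff_mem`,
  `hlift`.
-/

set_option autoImplicit false
set_option linter.style.haveILetI false
set_option linter.unusedSectionVars false

noncomputable section

/- S36 build-time patch: file-local shortcut instances. They only shorten instance search;
each is the instance that the search finds anyway (reducible, same terms after unfolding). -/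
local instance (priority := 100000) Fermat.Agent.BR3.FastInst.instAlgFullC_CuspMid_CuspValue
    {k : Type*} [Field k] (N : ℕ) :
    Algebra k ↥(ModularCurve.modularFunctionFieldFullC k N) := inferInstance
local instance (priority := 100000) Fermat.Agent.BR3.FastInst.instFieldFullC_CuspMid_CuspValue
    {k : Type*} [Field k] (N : ℕ) :
    Field ↥(ModularCurve.modularFunctionFieldFullC k N) := inferInstance
local instance (priority := 100000) Fermat.Agent.BR3.FastInst.instAlgLaurent_CuspMid_CuspValue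
    {k : Type*} [Field k] : Algebra k (LaurentSeries k) := inferInstance


set_option synthInstance.maxHeartbeats 400000

namespace Fermat.Agent.BR3.CuspMid

open ModularCurve AlgebraicCurve HahnSeries Polynomial Fermat.Agent.X0 Fermat.Agent.Val
open Fermat.Agent.Hecke.AL Fermat.Agent.BR.TwoVal Fermat.Agent.BR.ResGen Fermat.Agent.Red
open Fermat.Agent.BR.TwoValInst Fermat.Agent.BR3.FibreProd Fermat.Agent.BR.ConstRedTwo
open Fermat.Agent.BR3.CoverK Fermat.Agent.BR3.CoverSheetInf Fermat.Agent.BR.S0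
open Fermat.Agent.BR3.IgSq Fermat.Agent.BR.ModUnit Fermat.Agent.BR3.KummerGenus
open Fermat.Agent.BR3.KummerGenus.MidInst Fermat.Agent.BR3.CuspSheet

variable {M q : ℕ} [NeZero M] [hq : Fact q.Prime]
variable (B : ValuationSubring (AlgebraicClosure ℚ)) (hB : B.LiesOverPrime q) (hqM : ¬ q ∣ M)
variable {ζ : Kbˣ} (hζ : IsPrimitiveRoot ζ q)

local notation "kB" => IsLocalRing.ResidueField B
local notation "FtM" => modularFunctionFieldFullC (IsLocalRing.ResidueField B) M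

/-- (shortcut instances) -/
local instance (priority := 100000) instAlgKFtCV : Algebra kB FtM := inferInstance
local instance (priority := 100000) instAlgKFMidCV : Algebra kB (FMid M B) := inferInstance
local instance (priority := 100000) instAlgFtFMidCV : Algebra FtM (FMid M B) := inferInstance
local instance (priority := 100000) instTowerMidCV : IsScalarTower kB FtM (FMid M B) :=
  inferInstance

/-! ### Generic: level one + order zero ⇒ unit at the cusps -/

include hB hqM in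
/-- **A function of `FMid M B` whose `(q-1)`-st power is of level one and of `s`-adic order `0` is
a unit at every place over a cusp of `can`.** -/
theorem ord_eq_zero_of_cusp_of_level_one [FiniteDimensional FtM (FMid M B)] (Q' : Place kB FtM)
    (hQ' : Q'.ord (jFullC kB M) < 0) {Q'' : Place kB (FMid M B)} (hQ'' : Q''.restrict FtM = Q')
    {c : LaurentSeries kB} (hc1 : c ^ (q - 1) ∈ modularFunctionFieldFullC kB 1)
    (hc0 : c.order = 0) (hcne : c ≠ 0)
    {ρ : FMid M B} (hρ : (ρ : LaurentSeries kB) = c) : Q''.ord ρ = 0 := by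
  have hmemM : c ^ (q - 1) ∈ FtM := full_degeneracyC_le kB (one_dvd M) hc1
  set cc : FtM := ⟨c ^ (q - 1), hmemM⟩ with hcc
  have hccne : cc ≠ 0 := by
    intro h
    have h1 := congrArg (fun x : FtM => (x : LaurentSeries kB)) h
    exact pow_ne_zero _ hcne h1
  have h0 : Q'.ord cc = 0 := by
    apply ord_eq_zero_of_mem_level_one Q' hQ' (f := cc) hc1 _ hccne
    show (c ^ (q - 1)).order = 0
    rw [HahnSeries.order_pow, hc0, smul_zero]
  have h1 : algebraMap FtM (FMid M B) cc = ρ ^ (q - 1) := by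
    apply Subtype.ext
    show (cc : LaurentSeries kB) = (ρ : LaurentSeries kB) ^ (q - 1)
    rw [hρ]
  have h2 : Q''.ord (algebraMap FtM (FMid M B) cc) = 0 := by
    rw [Place.ord_restrict, hQ'', h0, mul_zero]
  rw [h1] at h2
  have h3 : Q''.ord (ρ ^ (q - 1)) = ((q - 1 : ℕ) : ℤ) * Q''.ord ρ := by
    have := Q''.ord_zpow ρ ((q - 1 : ℕ) : ℤ)
    rwa [zpow_natCast] at this
  rw [h3] at h2
  have hq1 : 0 < q - 1 := by have := hq.out.two_le; omega
  rcases mul_eq_zero.mp h2 with h | h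
  · exact absurd (by exact_mod_cast h) hq1.ne'
  · exact h

include hB hqM in
/-- **The value at the places over the cusps** of an element of `w₂ b` whose residue `c` has
`c^(q-1)` of level one and of `s`-adic order `0`. -/
theorem exists_value_of_cusp [FiniteDimensional FtM (FMid M B)] (Q' : Place kB FtM)
    (hQ' : Q'.ord (jFullC kB M) < 0) {Q'' : Place kB (FMid M B)} (hQ'' : Q''.restrict FtM = Q')
    {b : ℕ} (hb : b < q - 1) {θ : Fb (M * q * q)} {c : LaurentSeries kB}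
    (hc1 : c ^ (q - 1) ∈ modularFunctionFieldFullC kB 1) (hc0 : c.order = 0) (hcne : c ≠ 0)
    (hres : ∃ hmem : θ ∈ w2 B hB hqM hζ hb, resw2 B hB hqM hζ hb ⟨θ, hmem⟩ = c) :
    ∃ u : B, IsLocalRing.residue B u ≠ 0 ∧
      ∀ hmem : θ ∈ w2 B hB hqM hζ hb,
        IsValueAt Q'' (resMid B hB hqM hζ hb ⟨θ, hmem⟩) (IsLocalRing.residue B u) := by
  obtain ⟨hmem0, hres⟩ := hres
  set ρ : FMid M B := resMid B hB hqM hζ hb ⟨θ, hmem0⟩ with hρ
  have hρco : (ρ : LaurentSeries kB) = c := by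
    rw [hρ, coe_resMid, hres]
  have hord := ord_eq_zero_of_cusp_of_level_one B hB hqM Q' hQ' hQ'' hc1 hc0 hcne hρco
  have hρne : ρ ≠ 0 := by
    intro h
    rw [h] at hρco
    exact hcne hρco.symm
  obtain ⟨a, ha⟩ := exists_isValueAt Q'' ((riemannPkg_FMid B hB hqM).deg_one Q'')
    (Place.mem_of_ord_nonneg Q'' (le_of_eq hord.symm))
  have ha0 : a ≠ 0 := by
    rintro rfl
    rcases (adicValuation_lt_one_iff Q'').mp (isValueAt_zero_iff.mp ha) with h | h
    · exact hρne h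
    · rw [hord] at h
      exact lt_irrefl _ h
  obtain ⟨u, hu⟩ := IsLocalRing.residue_surjective (R := B) a
  refine ⟨u, by rw [hu]; exact ha0, fun hmem => ?_⟩
  rw [hu]
  exact ha

/-! ### Generic `(r, x, h)`: the sheet at the cusps -/

set_option maxHeartbeats 2000000 in
include hB hqM in
/-- **The sheet of `mid = w₂ b₀` at a point `Q''` over a cusp `Q'` of `can` along `α₂`** for a
generator `thetaGen r x h z₀` whose residue `c = r̄₂ · θ x̄ · h̄⁻¹` has `c^(q-1)` of level one and of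
`s`-adic order `0`. -/
theorem exists_coverSheet_mid_thetaGen_cusp [FiniteDimensional FtM (FMid M B)] (b₀ : Fin (q - 1))
    {r x h : Fb (M * q)} (hr2 : r ∈ O2 B hB hqM)
    (hr1 : r * algebraMap Kb (Fb (M * q)) ((((ζ ^ ((b₀ : ℕ) + 1) : Kbˣ) : Kb)) - 1)⁻¹ ∈
      (O1 M B hB).nonunits)
    (hx1 : x ∈ O1 M B hB) (hx2 : x ∈ O2 B hB hqM) (hh : h⁻¹ ∈ O1 M B hB)
    (hc1 : (res2 B hB hqM ⟨r, hr2⟩ * thetaL kB (res1 M B hB ⟨x, hx1⟩) *
      res1 M B hB ⟨h⁻¹, hh⟩) ^ (q - 1) ∈ modularFunctionFieldFullC kB 1)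
    (hc0 : (res2 B hB hqM ⟨r, hr2⟩ * thetaL kB (res1 M B hB ⟨x, hx1⟩) *
      res1 M B hB ⟨h⁻¹, hh⟩).order = 0)
    (hcne : res2 B hB hqM ⟨r, hr2⟩ * thetaL kB (res1 M B hB ⟨x, hx1⟩) *
      res1 M B hB ⟨h⁻¹, hh⟩ ≠ 0)
    (Q' : Place kB FtM) (hQ' : Q'.ord (jFullC kB M) < 0) {Q'' : Place kB (FMid M B)}
    (hQ'' : Q''.restrict FtM = Q') {T' : Set (Place Kb (Fb (M * q)))}
    (C : SmoothChart B (constRedW1 B hB hqM).O (constRedW1 B hB hqM).res Q' T')
    (coeff_mem : letI := algebraAlong (alpha2 M q)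
      ∀ n, (minpoly (Fb (M * q))
        (thetaGen hqM r x h ((ζ ^ ((b₀ : ℕ) + 1) : Kbˣ) : Kb))).coeff n ∈ C.R)
    (hlift : ∀ f : FtM, 0 ≤ Q'.ord f →
      ∃ y ∈ C.R, ∃ hy : y ∈ (constRedW1 B hB hqM).O, (constRedW1 B hB hqM).res ⟨y, hy⟩ = f) :
    letI := algebraAlong (alpha2 M q)
    haveI := isScalarTower_along (alpha2 M q)
    ∃ (u : B) (ψ ψc : (Fb (M * q))[X]), IsLocalRing.residue B u ≠ 0 ∧
      CoverSheet B (IsLocalRing.residue B) (constRedW1 B hB hqM).O (constRedW1 B hB hqM).res Q'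
        (constRedMid B hB hqM hζ b₀.2).O (constRedMid B hB hqM hζ b₀.2).res Q'' C.R
        (thetaGen hqM r x h ((ζ ^ ((b₀ : ℕ) + 1) : Kbˣ) : Kb))
        (minpoly (Fb (M * q)) (thetaGen hqM r x h ((ζ ^ ((b₀ : ℕ) + 1) : Kbˣ) : Kb)))
        ψ ψc u := by
  letI := algebraAlong (alpha2 M q)
  haveI := isScalarTower_along (alpha2 M q)
  have hres : ∃ hmem : thetaGen hqM r x h ((ζ ^ ((b₀ : ℕ) + 1) : Kbˣ) : Kb) ∈
      w2 B hB hqM hζ b₀.2, resw2 B hB hqM hζ b₀.2 ⟨_, hmem⟩ =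
        res2 B hB hqM ⟨r, hr2⟩ * thetaL kB (res1 M B hB ⟨x, hx1⟩) * res1 M B hB ⟨h⁻¹, hh⟩ := by
    obtain ⟨hmem, hres⟩ := exists_resw2_thetaGen hqM B hB hζ (b := (b₀ : ℕ)) hr2 hx1 hh b₀.2 1
      (pow_one _).symm
    refine ⟨hmem, ?_⟩
    rw [hres, Nat.cast_one, map_one, mul_one]
  obtain ⟨u, hu0, hval⟩ := exists_value_of_cusp B hB hqM hζ Q' hQ' hQ'' b₀.2 hc1 hc0 hcne hres
  obtain ⟨ψ, ψc, hsheet⟩ := exists_coverSheet_mid_thetaGen B hB hqM hζ b₀ hr2 hr1 hx1 hx2 hh Q' Q''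
    (fun f => ord_map_of_cusp B hB hqM Q' hQ' hQ'' f) C coeff_mem hlift u hu0 hval
  exact ⟨u, ψ, ψc, hu0, hsheet⟩

/-! ### The instance `r = (1 - hSepInf)^e`, `x = h = j⁻¹` -/

theorem exists_res1_jBar_inv :
    ∃ hi : (jBar (M * q))⁻¹ ∈ O1 M B hB,
      res1 M B hB ⟨(jBar (M * q))⁻¹, hi⟩ = (jqModC kB)⁻¹ := by
  have hne : res1 M B hB ⟨jBar (M * q), jBar_mem_O1 B hB⟩ ≠ 0 := by
    rw [res1_jBar]
    exact jqModC_ne_zero_of_nontrivial kB
  obtain ⟨hi, hr⟩ := inv_mem_O1_of_res1_ne_zero B hB (jBar_mem_O1 B hB) hne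
  exact ⟨hi, by rw [hr, res1_jBar]⟩

theorem jBar_inv_mem_O1 : (jBar (M * q))⁻¹ ∈ O1 M B hB := (exists_res1_jBar_inv B hB).1

theorem exists_res1_jq'_inv :
    ∃ hi : (jq' M q)⁻¹ ∈ O1 M B hB,
      res1 M B hB ⟨(jq' M q)⁻¹, hi⟩ = (jqModC kB ^ q)⁻¹ := by
  obtain ⟨hi, hr⟩ := inv_mem_O1_of_res1_ne_zero B hB (jq'_mem_O1 B hB) (res1_jq'_ne_zero (M := M) (q := q) B hB)
  exact ⟨hi, by rw [hr, res1_jq']⟩

theorem jq'_mem_O2' : jq' M q ∈ O2 B hB hqM := by
  rw [mem_O2_iff, MidBeta.Wq_jq']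
  exact jBar_mem_O1 B hB

theorem res2_jq'' : res2 B hB hqM ⟨jq' M q, jq'_mem_O2' B hB hqM⟩ = jqModC kB := by
  rw [res2_apply, ← res1_jBar (M := M) (q := q) B hB]
  congr 1
  exact Subtype.ext (MidBeta.Wq_jq' (hqM := hqM))

theorem Wq_jBar_inv : Wq hqM (jBar (M * q))⁻¹ = (jq' M q)⁻¹ := by
  rw [map_inv₀, ← MidBeta.Wq_jq' (hqM := hqM), Wq_Wq]

theorem jBar_inv_mem_O2 : (jBar (M * q))⁻¹ ∈ O2 B hB hqM := by
  rw [mem_O2_iff, Wq_jBar_inv]
  exact (exists_res1_jq'_inv B hB).1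

theorem res2_jBar_inv :
    res2 B hB hqM ⟨(jBar (M * q))⁻¹, jBar_inv_mem_O2 B hB hqM⟩ = (jqModC kB ^ q)⁻¹ := by
  rw [res2_apply, ← (exists_res1_jq'_inv (M := M) (q := q) B hB).2]
  congr 1
  exact Subtype.ext (Wq_jBar_inv hqM)

theorem hSepInf_mem_O2 : hSepInf M q ∈ O2 B hB hqM :=
  (O2 B hB hqM).mul_mem _ _ (jq'_mem_O2' B hB hqM) (pow_mem (jBar_inv_mem_O2 B hB hqM) q)

theorem res2_hSepInf :
    res2 B hB hqM ⟨hSepInf M q, hSepInf_mem_O2 B hB hqM⟩ =
      jqModC kB * ((jqModC kB ^ q)⁻¹) ^ q := by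
  have e : (⟨hSepInf M q, hSepInf_mem_O2 B hB hqM⟩ : O2 B hB hqM) =
      ⟨jq' M q, jq'_mem_O2' B hB hqM⟩ * ⟨(jBar (M * q))⁻¹, jBar_inv_mem_O2 B hB hqM⟩ ^ q := rfl
  rw [e, map_mul, map_pow, res2_jq'', res2_jBar_inv]

variable (M q) in
/-- the factor `r = (1 - j(s^q)/j^q)^e` of the cusp generator -/
def rInf (e : ℕ) : Fb (M * q) := (1 - hSepInf M q) ^ e

theorem rInf_mem_O2 (e : ℕ) : rInf M q e ∈ O2 B hB hqM :=
  pow_mem (sub_mem (one_mem _) (hSepInf_mem_O2 B hB hqM)) e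

/-- the level one function `1 - j̃^(1-q²)` -/
def rhoInf : LaurentSeries kB := 1 - jqModC kB * ((jqModC kB ^ q)⁻¹) ^ q

theorem res2_rInf (e : ℕ) :
    res2 B hB hqM ⟨rInf M q e, rInf_mem_O2 B hB hqM e⟩ = rhoInf (q := q) B ^ e := by
  have e1 : (⟨rInf M q e, rInf_mem_O2 B hB hqM e⟩ : O2 B hB hqM) =
      (1 - ⟨hSepInf M q, hSepInf_mem_O2 B hB hqM⟩) ^ e := rfl
  rw [e1, map_pow, map_sub, map_one, res2_hSepInf, rhoInf]

theorem jBar_inv_inv_mem_O1 : ((jBar (M * q))⁻¹)⁻¹ ∈ O1 M B hB := by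
  rw [inv_inv]
  exact jBar_mem_O1 B hB

theorem res1_jBar_inv_inv :
    res1 M B hB ⟨((jBar (M * q))⁻¹)⁻¹, jBar_inv_inv_mem_O1 B hB⟩ = jqModC kB := by
  rw [← res1_jBar (M := M) (q := q) B hB]
  congr 1
  exact Subtype.ext (inv_inv _)

/-- **The residue of the new cusp generator on the middle valuations**:
`c = (1 - j̃^(1-q²))^e · θ(j̃⁻¹) · j̃`. -/
def cInf (e : ℕ) : LaurentSeries kB :=
  rhoInf (q := q) B ^ e * thetaL kB (jqModC kB)⁻¹ * jqModC kB

/-- the new cusp generator `(1 - θ∞)^e (j/j(s^{q²}) - 1)/(z - 1)` -/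
def thetaCuspInf (e : ℕ) (z : Kb) : Fb (M * q * q) :=
  thetaGen hqM (rInf M q e) (jBar (M * q))⁻¹ (jBar (M * q))⁻¹ z

theorem res_formula_cInf (e : ℕ) :
    res2 B hB hqM ⟨rInf M q e, rInf_mem_O2 B hB hqM e⟩ *
      thetaL kB (res1 M B hB ⟨(jBar (M * q))⁻¹, jBar_inv_mem_O1 B hB⟩) *
        res1 M B hB ⟨((jBar (M * q))⁻¹)⁻¹, jBar_inv_inv_mem_O1 B hB⟩ = cInf (q := q) B e := by
  rw [res2_rInf, (exists_res1_jBar_inv B hB).2, res1_jBar_inv_inv, cInf]

/-! ### Level one and order -/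

theorem thetaL_inv_jqModC :
    thetaL kB (jqModC kB)⁻¹ = -(thetaL kB (jqModC kB) * ((jqModC kB)⁻¹ * (jqModC kB)⁻¹)) := by
  have hj : jqModC kB ≠ 0 := jqModC_ne_zero_of_nontrivial kB
  have h1 : (jqModC kB)⁻¹ = 1 / jqModC kB := (one_div _).symm
  have h0 : thetaL kB (1 : LaurentSeries kB) = 0 := by
    have := thetaL_C (k := kB) (1 : kB)
    rwa [map_one] at this
  rw [h1, thetaL_div_eq hj, h0]
  field_simp
  ring

theorem rhoInf_mem_level_one : rhoInf (q := q) B ∈ modularFunctionFieldFullC kB 1 := by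
  rw [rhoInf]
  exact sub_mem (one_mem _) (mul_mem (jqModC_mem_full kB 1)
    (pow_mem (inv_mem (pow_mem (jqModC_mem_full kB 1) _)) _))

include hB in
/-- `c^{q-1}` is a function of level one. -/
theorem cInf_pow_mem_level_one (e : ℕ) :
    cInf (q := q) B e ^ (q - 1) ∈ modularFunctionFieldFullC kB 1 := by
  have hj := jqModC_mem_full kB 1
  rw [cInf, thetaL_inv_jqModC, mul_pow, mul_pow, neg_pow, mul_pow]
  refine mul_mem (mul_mem (pow_mem (pow_mem (rhoInf_mem_level_one B) _) _)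
    (mul_mem (pow_mem (neg_mem (one_mem _)) _) (mul_mem (thetaL_pow_mem_level_one B hB)
      (pow_mem (mul_mem (inv_mem hj) (inv_mem hj)) _)))) (pow_mem hj _)

theorem orderTop_rhoInf : (rhoInf (q := q) B).orderTop = 0 := by
  haveI : NeZero q := ⟨hq.out.ne_zero⟩
  have hj : jqModC kB ≠ 0 := jqModC_ne_zero_of_nontrivial kB
  have hjq : jqModC kB ^ q ≠ 0 := pow_ne_zero _ hj
  set y : LaurentSeries kB := jqModC kB * ((jqModC kB ^ q)⁻¹) ^ q with hy
  have hyne : y ≠ 0 := mul_ne_zero hj (pow_ne_zero _ (inv_ne_zero hjq))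
  have hyord : y.order = (q : ℤ) * q - 1 := by
    have h1 : y * (jqModC kB ^ q) ^ q = jqModC kB := by
      rw [hy, mul_assoc, ← mul_pow, inv_mul_cancel₀ hjq, one_pow, mul_one]
    have h2 := congrArg HahnSeries.order h1
    rw [HahnSeries.order_mul hyne (pow_ne_zero _ hjq), HahnSeries.order_pow, HahnSeries.order_pow,
      order_jqModC_eq] at h2
    simp only [nsmul_eq_mul] at h2
    linarith
  have hpos : (0 : WithTop ℤ) < y.orderTop := by
    rw [← HahnSeries.order_eq_orderTop_of_ne_zero hyne, hyord]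
    have hq2 : (2 : ℤ) ≤ q := by exact_mod_cast hq.out.two_le
    have : (0 : ℤ) < (q : ℤ) * q - 1 := by nlinarith
    exact_mod_cast this
  rw [rhoInf, HahnSeries.orderTop_sub (by rw [HahnSeries.orderTop_one]; exact hpos),
    HahnSeries.orderTop_one]

theorem rhoInf_ne_zero : rhoInf (q := q) B ≠ 0 := by
  intro h
  have := orderTop_rhoInf (q := q) B
  rw [h, HahnSeries.orderTop_zero] at this
  exact WithTop.top_ne_zero this

theorem order_rhoInf : (rhoInf (q := q) B).order = 0 := by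
  have h := HahnSeries.order_eq_orderTop_of_ne_zero (rhoInf_ne_zero (q := q) B)
  rw [orderTop_rhoInf] at h
  exact_mod_cast h

include hB in
theorem cInf_ne_zero (e : ℕ) : cInf (q := q) B e ≠ 0 := by
  have hj : jqModC kB ≠ 0 := jqModC_ne_zero_of_nontrivial kB
  rw [cInf, thetaL_inv_jqModC]
  exact mul_ne_zero (mul_ne_zero (pow_ne_zero _ (rhoInf_ne_zero B))
    (neg_ne_zero.2 (mul_ne_zero (thetaL_jqModC_ne_zero B)
      (mul_ne_zero (inv_ne_zero hj) (inv_ne_zero hj))))) hj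

include hB in
/-- `c` has `s`-adic order `0`. -/
theorem order_cInf (e : ℕ) : (cInf (q := q) B e).order = 0 := by
  have hj : jqModC kB ≠ 0 := jqModC_ne_zero_of_nontrivial kB
  have hρ : rhoInf (q := q) B ^ e ≠ 0 := pow_ne_zero _ (rhoInf_ne_zero B)
  have hθ := thetaL_jqModC_ne_zero B
  have h1 : cInf (q := q) B e * jqModC kB = -(rhoInf (q := q) B ^ e * thetaL kB (jqModC kB)) := by
    rw [cInf, thetaL_inv_jqModC]
    field_simp
  have h2 := congrArg HahnSeries.order h1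
  rw [HahnSeries.order_mul (cInf_ne_zero B hB e) hj, HahnSeries.order_neg,
    HahnSeries.order_mul hρ hθ, HahnSeries.order_pow, order_rhoInf, order_thetaL_jqModC,
    order_jqModC_eq] at h2
  simp only [smul_zero] at h2
  linarith

/-! ### The sheet for the new generator -/

set_option maxHeartbeats 2000000 in
include hB hqM in
/-- **The sheet of the middle component `mid = w₂ b₀` at a point `Q''` over a cusp `Q'` of `can`
along `α₂`, for the generator `thetaCuspInf e z₀ = (1 - θ∞)^e (j/j(s^{q²}) - 1)/(z₀ - 1)`**, for the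
local ring of a smooth chart `C` at `Q'`: from `hr1` (Kronecker: `(1 - j(s^q)/j^q)^e / (z₀ - 1)` is
small on `w₁`) and the two chart-ring inputs `coeff_mem`, `hlift`. -/
theorem exists_coverSheet_mid_cuspInf [FiniteDimensional FtM (FMid M B)] (e : ℕ)
    (b₀ : Fin (q - 1))
    (hr1 : rInf M q e * algebraMap Kb (Fb (M * q)) ((((ζ ^ ((b₀ : ℕ) + 1) : Kbˣ) : Kb)) - 1)⁻¹ ∈
      (O1 M B hB).nonunits)
    (Q' : Place kB FtM) (hQ' : Q'.ord (jFullC kB M) < 0) {Q'' : Place kB (FMid M B)}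
    (hQ'' : Q''.restrict FtM = Q') {T' : Set (Place Kb (Fb (M * q)))}
    (C : SmoothChart B (constRedW1 B hB hqM).O (constRedW1 B hB hqM).res Q' T')
    (coeff_mem : letI := algebraAlong (alpha2 M q)
      ∀ n, (minpoly (Fb (M * q))
        (thetaCuspInf (M := M) hqM e ((ζ ^ ((b₀ : ℕ) + 1) : Kbˣ) : Kb))).coeff n ∈ C.R)
    (hlift : ∀ f : FtM, 0 ≤ Q'.ord f →
      ∃ y ∈ C.R, ∃ hy : y ∈ (constRedW1 B hB hqM).O, (constRedW1 B hB hqM).res ⟨y, hy⟩ = f) :
    letI := algebraAlong (alpha2 M q)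
    haveI := isScalarTower_along (alpha2 M q)
    ∃ (u : B) (ψ ψc : (Fb (M * q))[X]), IsLocalRing.residue B u ≠ 0 ∧
      CoverSheet B (IsLocalRing.residue B) (constRedW1 B hB hqM).O (constRedW1 B hB hqM).res Q'
        (constRedMid B hB hqM hζ b₀.2).O (constRedMid B hB hqM hζ b₀.2).res Q'' C.R
        (thetaCuspInf (M := M) hqM e ((ζ ^ ((b₀ : ℕ) + 1) : Kbˣ) : Kb))
        (minpoly (Fb (M * q)) (thetaCuspInf (M := M) hqM e ((ζ ^ ((b₀ : ℕ) + 1) : Kbˣ) : Kb)))
        ψ ψc u := by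
  have hf := res_formula_cInf B hB hqM e
  exact exists_coverSheet_mid_thetaGen_cusp B hB hqM hζ b₀ (rInf_mem_O2 B hB hqM e) hr1
    (jBar_inv_mem_O1 B hB) (jBar_inv_mem_O2 B hB hqM) (jBar_inv_inv_mem_O1 B hB)
    (by rw [hf]; exact cInf_pow_mem_level_one B hB e)
    (by rw [hf]; exact order_cInf B hB e)
    (by rw [hf]; exact cInf_ne_zero B hB e)
    Q' hQ' hQ'' C coeff_mem hlift

end Fermat.Agent.BR3.CuspMid
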