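import Fermat.Agent.BR3.KummerGenus.MidInst
import Fermat.Agent.BR3.SepN
import Fermat.Agent.BR3.SDD.PartitionRegions

/-!
# Program C, node (W4-CAN-MOD, hMM): a Kummer generator separates the places over an unramified
point

`E/κ` function fields over `k`, `σ` a `κ`-automorphism of `E`, `ζ ∈ k` a primitive `n`-th root of
unity, `ρ ∈ E` with `σ ρ = ζ ρ`.  If at most `n` places of `E` lie over the place `v` of `κ`
(e.g. `[E : κ] = n` and `v` unramified), two places over `v` at which `ρ` takes the same NONZERO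
value coincide: the translates `w ∘ σ^l` (`l < n`) are `n` places over `v` with the pairwise
distinct values `ζ^l a`.

* `autK σ`, `placeSmul σ w` (`= w ∘ σ`), `isValueAt_placeSmul_iff`, `placeSmul_restrict`;
* **`eq_of_isValueAt_of_kummer`** : generic;
* **`eq_of_isValueAt_mid`** : the instance `FMid M B / F̃_M` (helper5's `midDatum`), for
  `ρ = a · θ j̃`, `a ∈ F̃_M`, over a point `Q'` over which `FMid M B` is unramified.
-/

set_option autoImplicit false
set_option linter.style.haveILetI false
set_option linter.unusedSectionVars false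

noncomputable section

namespace Fermat.Agent.BR3.CuspMid

open AlgebraicCurve Fermat.Agent.Red Fermat.Agent.BR3.KummerGenus

section Generic

variable {k κ E : Type*} [Field k] [Field κ] [Field E] [Algebra k κ] [Algebra k E] [Algebra κ E]
  [IsScalarTower k κ E]

/-- a `κ`-automorphism of `E` as a `k`-algebra endomorphism -/
def autK (σ : E ≃ₐ[κ] E) : E →ₐ[k] E := ((σ.restrictScalars k : E ≃ₐ[k] E) : E →ₐ[k] E)

@[simp] theorem autK_apply (σ : E ≃ₐ[κ] E) (y : E) : autK (k := k) σ y = σ y := rfl

theorem autK_isIntegral (σ : E ≃ₐ[κ] E) : (autK (k := k) σ).toRingHom.IsIntegral := by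
  intro y
  have h : y = (autK (k := k) σ).toRingHom (σ.symm y) := by
    show y = σ (σ.symm y)
    rw [AlgEquiv.apply_symm_apply]
  rw [h]
  exact RingHom.isIntegralElem_map _

/-- the translate `w ∘ σ` of a place of `E` by a `κ`-automorphism -/
def placeSmul (σ : E ≃ₐ[κ] E) (w : Place k E) : Place k E :=
  w.restrictAlong (autK (k := k) σ) (autK_isIntegral σ)

theorem mem_placeSmul_iff (σ : E ≃ₐ[κ] E) (w : Place k E) (y : E) :
    y ∈ (placeSmul σ w).toValuationSubring ↔ σ y ∈ w.toValuationSubring := Iff.rfl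

theorem isValueAt_placeSmul_iff (σ : E ≃ₐ[κ] E) (w : Place k E) (y : E) (c : k) :
    IsValueAt (placeSmul σ w) y c ↔ IsValueAt w (σ y) c :=
  Fermat.Agent.BR3.SepN.isValueAt_restrictAlong_iff (autK (k := k) σ) (autK_isIntegral σ) w y c

theorem placeSmul_restrict [Algebra.IsIntegral κ E] (σ : E ≃ₐ[κ] E) (w : Place k E) :
    (placeSmul σ w).restrict κ = w.restrict κ := by
  apply Place.ext
  ext f
  rw [Place.mem_restrict_iff, Place.mem_restrict_iff, mem_placeSmul_iff, AlgEquiv.commutes]

theorem sigma_pow_apply {σ : E ≃ₐ[κ] E} {ζ : k} {ρ : E} (hσ : σ ρ = algebraMap k E ζ * ρ)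
    (l : ℕ) : (σ ^ l) ρ = algebraMap k E (ζ ^ l) * ρ := by
  induction l with
  | zero => simp
  | succ l ih =>
    rw [pow_succ', AlgEquiv.mul_apply, ih, map_mul, hσ, ← mul_assoc, pow_succ, map_mul]
    have hc : σ (algebraMap k E (ζ ^ l)) = algebraMap k E (ζ ^ l) := by
      rw [IsScalarTower.algebraMap_apply k κ E, AlgEquiv.commutes]
    rw [hc]

/-- **A Kummer generator separates the places over a point with at most `n` places above it.** -/
theorem eq_of_isValueAt_of_kummer [Algebra.IsIntegral κ E] [HasPrincipalDivisors k E] {n : ℕ}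
    (σ : E ≃ₐ[κ] E) {ζ : k} (hζ : IsPrimitiveRoot ζ n) {ρ : E}
    (hσ : σ ρ = algebraMap k E ζ * ρ) (v : Place k κ) (hcard : (v.fiber E).card ≤ n)
    {w w' : Place k E} (hw : w.restrict κ = v) (hw' : w'.restrict κ = v) {a : k} (ha : a ≠ 0)
    (hva : IsValueAt w ρ a) (hva' : IsValueAt w' ρ a) : w = w' := by
  classical
  set g : Fin n → Place k E := fun l => placeSmul (σ ^ (l : ℕ)) w with hg
  have hval : ∀ l : Fin n, IsValueAt (g l) ρ (ζ ^ (l : ℕ) * a) := by
    intro l
    rw [hg, isValueAt_placeSmul_iff, sigma_pow_apply hσ]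
    exact (isValueAt_algebraMap w (ζ ^ (l : ℕ))).mul hva
  have hpow : ∀ l : Fin n, ζ ^ (l : ℕ) * a = a → (l : ℕ) = 0 := by
    intro l h
    have h1 : ζ ^ (l : ℕ) = 1 := by
      have h2 : ζ ^ (l : ℕ) * a = 1 * a := by rw [h, one_mul]
      exact mul_right_cancel₀ ha h2
    by_contra hne
    exact hζ.pow_ne_one_of_pos_of_lt hne l.2 h1
  have hinj : Function.Injective g := by
    intro l l' h
    have h1 := (hval l).unique (h ▸ hval l')
    have h2 : ζ ^ (l : ℕ) = ζ ^ (l' : ℕ) := mul_right_cancel₀ ha h1
    exact Fin.ext (hζ.pow_inj l.2 l'.2 h2)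
  have hmem : ∀ l : Fin n, g l ∈ v.fiber E := by
    intro l
    rw [Place.mem_fiber, hg, placeSmul_restrict, hw]
  have himg : (Finset.univ.image g) = v.fiber E := by
    apply Finset.eq_of_subset_of_card_le
    · intro x hx
      obtain ⟨l, -, rfl⟩ := Finset.mem_image.mp hx
      exact hmem l
    · rw [Finset.card_image_of_injective _ hinj, Finset.card_univ, Fintype.card_fin]
      exact hcard
  have key : ∀ {x : Place k E}, x.restrict κ = v → IsValueAt x ρ a →
      ∃ l : Fin n, (l : ℕ) = 0 ∧ x = g l := by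
    intro x hx hxa
    have hxm : x ∈ Finset.univ.image g := by
      rw [himg, Place.mem_fiber]
      exact hx
    obtain ⟨l, -, rfl⟩ := Finset.mem_image.mp hxm
    exact ⟨l, hpow l ((hval l).unique hxa), rfl⟩
  obtain ⟨l, hl, e⟩ := key hw hva
  obtain ⟨l', hl', e'⟩ := key hw' hva'
  have hll : l = l' := Fin.ext (by rw [hl, hl'])
  rw [e, e', hll]

end Generic

/-! ### The instance `FMid M B / F̃_M` -/

section Modular

open ModularCurve Fermat.Agent.X0 Fermat.Agent.Val Fermat.Agent.BR3.FibreProd
open Fermat.Agent.BR3.KummerGenus.MidInst Fermat.Agent.BR3.SDD.Partition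

variable {M q : ℕ} [NeZero M] [hq : Fact q.Prime]
variable (B : ValuationSubring (AlgebraicClosure ℚ)) (hB : B.LiesOverPrime q) (hqM : ¬ q ∣ M)

local notation "kB" => IsLocalRing.ResidueField B
local notation "FtM" => modularFunctionFieldFullC (IsLocalRing.ResidueField B) M

/-- (shortcut instances) -/
local instance (priority := 100000) instAlgKFtKS : Algebra kB FtM := inferInstance
local instance (priority := 100000) instAlgKFMidKS : Algebra kB (FMid M B) := inferInstance
local instance (priority := 100000) instAlgFtFMidKS : Algebra FtM (FMid M B) := inferInstance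
local instance (priority := 100000) instTowerMidKS : IsScalarTower kB FtM (FMid M B) :=
  inferInstance

include hB hqM in
/-- **`a · θ j̃` separates the places of `FMid M B` over a point of `F̃_M` over which `FMid M B` is
unramified.** -/
theorem eq_of_isValueAt_mid [FiniteDimensional FtM (FMid M B)] (Q' : Place kB FtM)
    (hunr : ∀ Q'' : Place kB (FMid M B), Q''.restrict FtM = Q' → Q''.ramificationIndex FtM = 1)
    (a : FtM) {Q'' Q''' : Place kB (FMid M B)} (hQ'' : Q''.restrict FtM = Q')
    (hQ''' : Q'''.restrict FtM = Q') {c : kB} (hc : c ≠ 0)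
    (hv : IsValueAt Q'' (algebraMap FtM (FMid M B) a * thetaMid B) c)
    (hv' : IsValueAt Q''' (algebraMap FtM (FMid M B) a * thetaMid B) c) : Q'' = Q''' := by
  haveI := (riemannPkg_FMid B hB hqM).principal
  haveI := fundamentalIdentity_of_kummer (midDatum B hB hqM) (riemannPkg_FMid B hB hqM)
    (fMid_natCast_ne_zero B hB hqM)
  have hcard : (Q'.fiber (FMid M B)).card = fMid M B hB := by
    rw [← finrank_FMid B hB hqM]
    exact card_fiber_of_unramified (riemannPkg_FtM B hB hqM).deg_one
      (riemannPkg_FMid B hB hqM).deg_one Q' fun w hw => hunr w (Place.mem_fiber.mp hw)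
  have hσ : (midDatum B hB hqM).σ (algebraMap FtM (FMid M B) a * thetaMid B) =
      algebraMap kB (FMid M B) (midDatum B hB hqM).ζ *
        (algebraMap FtM (FMid M B) a * thetaMid B) := by
    have h := (midDatum B hB hqM).hσ
    rw [midDatum_u] at h
    rw [map_mul, AlgEquiv.commutes, h]
    ring
  exact eq_of_isValueAt_of_kummer (midDatum B hB hqM).σ (midDatum B hB hqM).hζ hσ Q'
    (le_of_eq hcard) hQ'' hQ''' hc hv hv'

end Modular

end Fermat.Agent.BR3.CuspMid
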