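import Fermat.Agent.BR3.KummerGenus.MidInst
import Fermat.Agent.BR3.FibreProdMidFull
import Fermat.Agent.BR3.FibreProdMidRes

/-!
# Program C, node (W4-CAN-MOD, hMM): the classes of the indices of the middle valuations

For `b, b' < q - 1` write `ζ^{b'+1} = (ζ^{b+1})^m`.  Then

  `w₂ b' = w₂ b  ↔  m^{fMid} = 1 in k_B`

(`pow_eq_one_of_w2_eq`: transfer of the Kummer equation `X^{fMid} = δ` of `θ j̃` between the two
residue maps of the same valuation ring; `w2_eq_of_pow_eq_one`: the class of `b` has exactly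
`fMid` elements, `FibreProdMidFull.card_class_eq`, and at most `fMid` indices satisfy
`m^{fMid} = 1`).
-/

set_option autoImplicit false
set_option linter.style.haveILetI false
set_option linter.unusedSectionVars false

noncomputable section

set_option synthInstance.maxHeartbeats 400000

namespace Fermat.Agent.BR3.CuspMid

open ModularCurve AlgebraicCurve HahnSeries Polynomial Fermat.Agent.X0 Fermat.Agent.Val
open Fermat.Agent.BR.TwoVal Fermat.Agent.BR3.FibreProd Fermat.Agent.BR3.IgSq Fermat.Agent.BR.ResGen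
open Fermat.Agent.BR3.KummerGenus Fermat.Agent.BR3.KummerGenus.MidInst

variable {M q : ℕ} [NeZero M] [hq : Fact q.Prime]
variable (B : ValuationSubring (AlgebraicClosure ℚ)) (hB : B.LiesOverPrime q) (hqM : ¬ q ∣ M)
variable {ζ : Kbˣ} (hζ : IsPrimitiveRoot ζ q)

local notation "kB" => IsLocalRing.ResidueField B
local notation "FtM" => modularFunctionFieldFullC (IsLocalRing.ResidueField B) M

/-- (shortcut instances) -/
local instance (priority := 100000) instAlgKFtMC : Algebra kB FtM := inferInstance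
local instance (priority := 100000) instAlgKFMidMC : Algebra kB (FMid M B) := inferInstance
local instance (priority := 100000) instAlgFtFMidMC : Algebra FtM (FMid M B) := inferInstance
local instance (priority := 100000) instTowerMidMC : IsScalarTower kB FtM (FMid M B) :=
  inferInstance

theorem coe_algebraMap_FMid (a : FtM) :
    ((algebraMap FtM (FMid M B) a : FMid M B) : LaurentSeries kB) = (a : LaurentSeries kB) := by
  rw [IntermediateField.coe_algebraMap_apply, IntermediateField.algebraMap_apply]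

theorem coe_pow_FMid (x : FMid M B) (n : ℕ) :
    ((x ^ n : FMid M B) : LaurentSeries kB) = (x : LaurentSeries kB) ^ n :=
  SubmonoidClass.coe_pow _ _

theorem coe_mul_FMid (x y : FMid M B) :
    ((x * y : FMid M B) : LaurentSeries kB) = (x : LaurentSeries kB) * (y : LaurentSeries kB) :=
  rfl

theorem coe_thetaMid : ((thetaMid B : FMid M B) : LaurentSeries kB) = thetaL kB (jqModC kB) := rfl

include hB hqM in
/-- the Kummer equation of `θ j̃` as an equation between Laurent series -/
theorem thetaL_pow_fMid :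
    thetaL kB (jqModC kB) ^ fMid M B hB = ((deltaMid B hB hqM : FtM) : LaurentSeries kB) := by
  rw [← coe_thetaMid (M := M) B, ← coe_pow_FMid B, thetaMid_pow_fMid B hB hqM, coe_algebraMap_FMid]

include hB hqM in
/-- **Same valuation ring ⇒ `m^{fMid} = 1`.** -/
theorem pow_eq_one_of_w2_eq {b b' : ℕ} (hb : b < q - 1) (hb' : b' < q - 1)
    (heq : w2 B hB hqM hζ hb' = w2 B hB hqM hζ hb) {m : ℕ}
    (hm : ζ ^ (b' + 1) = (ζ ^ (b + 1)) ^ m) : ((m : ℕ) : kB) ^ fMid M B hB = 1 := by
  have hδmem : ((deltaMid B hB hqM : FtM) : LaurentSeries kB) ∈ kappaCan M B hB :=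
    (mem_kappaCan_iff_mem_fullC B hB hqM).2 (deltaMid B hB hqM).2
  set δκ : kappaCan M B hB := ⟨_, hδmem⟩ with hδκ
  set P : (kappaCan M B hB)[X] := X ^ fMid M B hB - Polynomial.C δκ with hP
  have haev : ∀ y : LaurentSeries kB, Polynomial.aeval y P =
      y ^ fMid M B hB - ((deltaMid B hB hqM : FtM) : LaurentSeries kB) := by
    intro y
    rw [hP, map_sub, map_pow, aeval_X, aeval_C]
    rfl
  obtain ⟨hmem, hr⟩ := resw2_Utilde_of_pow B hB hqM hζ (b := b) hb' m hm
  have h0 := aeval_resw2_eq_zero_of_eq B hB hqM hζ hb hb' heq P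
    (Utilde_mem_w2 B hB hqM hζ hb) hmem (by
      rw [resw2_Utilde, haev, thetaL_pow_fMid B hB hqM, sub_self])
  rw [hr, haev, mul_pow, thetaL_pow_fMid B hB hqM, sub_eq_zero] at h0
  have hδ0 : ((deltaMid B hB hqM : FtM) : LaurentSeries kB) ≠ 0 := by
    intro h
    exact deltaMid_ne_zero B hB hqM (Subtype.ext h)
  have h1 : (HahnSeries.C ((m : ℕ) : kB) : LaurentSeries kB) ^ fMid M B hB = 1 := by
    have h2 : ((deltaMid B hB hqM : FtM) : LaurentSeries kB) *
        (HahnSeries.C ((m : ℕ) : kB) : LaurentSeries kB) ^ fMid M B hB =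
        ((deltaMid B hB hqM : FtM) : LaurentSeries kB) * 1 := by rw [h0, mul_one]
    exact mul_left_cancel₀ hδ0 h2
  rw [← map_pow] at h1
  have h3 : (HahnSeries.C (((m : ℕ) : kB) ^ fMid M B hB) : LaurentSeries kB) =
      HahnSeries.C (1 : kB) := by rw [h1, map_one]
  exact HahnSeries.C_injective h3

open Classical in
include hB hqM in
/-- **`m^{fMid} = 1` ⇒ same valuation ring.** -/
theorem w2_eq_of_pow_eq_one {b b' : ℕ} (hb : b < q - 1) (hb' : b' < q - 1) {m : ℕ}
    (hm : ζ ^ (b' + 1) = (ζ ^ (b + 1)) ^ m) (h1 : ((m : ℕ) : kB) ^ fMid M B hB = 1) :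
    w2 B hB hqM hζ hb' = w2 B hB hqM hζ hb := by
  haveI := charP_kB B hB
  haveI : NeZero q := ⟨hq.out.ne_zero⟩
  have hcop : Nat.Coprime (b + 1) q := by
    rw [Nat.coprime_comm]
    refine (Nat.Prime.coprime_iff_not_dvd hq.out).2 fun h => ?_
    have := Nat.le_of_dvd (Nat.succ_pos b) h
    omega
  have hprim : IsPrimitiveRoot (ζ ^ (b + 1)) q := hζ.pow_of_coprime (b + 1) hcop
  have hex : ∀ t : Fin (q - 1), ∃ n : ℕ, ζ ^ ((t : ℕ) + 1) = (ζ ^ (b + 1)) ^ n :=
    fun t => exists_zeta_pow_eq hζ hb t.2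
  choose n hn using hex
  -- the cast of the exponent is determined by the index
  have hcast : ∀ (t : Fin (q - 1)) (n' : ℕ), ζ ^ ((t : ℕ) + 1) = (ζ ^ (b + 1)) ^ n' →
      ((n' : ℕ) : kB) = ((n t : ℕ) : kB) := by
    intro t n' h
    have h4 : (ζ ^ (b + 1)) ^ n' = (ζ ^ (b + 1)) ^ n t := by rw [← h, ← hn t]
    rw [pow_eq_pow_iff_modEq, ← hprim.eq_orderOf] at h4
    exact (CharP.natCast_eq_natCast kB q).2 h4
  have hinj : ∀ t t' : Fin (q - 1), ((n t : ℕ) : kB) = ((n t' : ℕ) : kB) → t = t' := by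
    intro t t' h
    have h3 : n t ≡ n t' [MOD q] := (CharP.natCast_eq_natCast kB q).1 h
    have h4 : (ζ ^ (b + 1)) ^ n t = (ζ ^ (b + 1)) ^ n t' := by
      rw [pow_eq_pow_iff_modEq, ← hprim.eq_orderOf]
      exact h3
    rw [← hn, ← hn] at h4
    have h5 := hζ.pow_inj (by have := t.2; omega) (by have := t'.2; omega) h4
    exact Fin.ext (by omega)
  set cls : Finset (Fin (q - 1)) :=
    Finset.univ.filter fun t : Fin (q - 1) => w2 B hB hqM hζ t.2 = w2 B hB hqM hζ hb with hcls
  set S : Finset (Fin (q - 1)) :=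
    Finset.univ.filter fun t : Fin (q - 1) => ((n t : ℕ) : kB) ^ fMid M B hB = 1 with hS
  have hsub : cls ⊆ S := by
    intro t ht
    rw [hcls, Finset.mem_filter] at ht
    rw [hS, Finset.mem_filter]
    exact ⟨Finset.mem_univ _, pow_eq_one_of_w2_eq B hB hqM hζ hb t.2 ht.2 (hn t)⟩
  have hfpos : 0 < fMid M B hB := fMid_pos B hB hqM
  have hSle : S.card ≤ fMid M B hB := by
    have hmaps : ∀ t ∈ S, ((n t : ℕ) : kB) ∈ Polynomial.nthRootsFinset (fMid M B hB) (1 : kB) := by
      intro t ht
      rw [hS, Finset.mem_filter] at ht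
      rw [Polynomial.mem_nthRootsFinset hfpos]
      exact ht.2
    calc S.card ≤ (Polynomial.nthRootsFinset (fMid M B hB) (1 : kB)).card :=
          Finset.card_le_card_of_injOn (fun t => ((n t : ℕ) : kB)) hmaps
            (fun t _ t' _ h => hinj t t' h)
      _ ≤ fMid M B hB := by
          rw [Polynomial.nthRootsFinset]
          exact (Multiset.toFinset_card_le _).trans (Polynomial.card_nthRoots _ _)
  have hclscard : cls.card = fMid M B hB := card_class_eq B hB hqM hζ hb
  have heqS : cls = S := Finset.eq_of_subset_of_card_le hsub (by rw [hclscard]; exact hSle)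
  have hmemS : (⟨b', hb'⟩ : Fin (q - 1)) ∈ S := by
    rw [hS, Finset.mem_filter]
    refine ⟨Finset.mem_univ _, ?_⟩
    rw [← hcast ⟨b', hb'⟩ m hm]
    exact h1
  rw [← heqS, hcls, Finset.mem_filter] at hmemS
  exact hmemS.2

end Fermat.Agent.BR3.CuspMid
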