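import Fermat.Agent.BR3.FibreProdMidGH
import Fermat.Agent.BR3.CoverSheetInf.Minpoly
import Fermat.Agent.BR3.CoverK.OfMinpolyChart

/-!
# Program C, nodes (SC3)/(SC4): the sheet of a middle component from the residues of a generator

`F' = Fb (M * q)` with the component `can = constRedW1` (residue field `F̃_M`),
`F'' = Fb (M * q * q)` (algebra along `α₂`) with the middle component `mid = constRedMid b₀`
(valuation ring `w₂ b₀`, residue field `FMid M B = F̃_M(θ j̃)`).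

`θ ∈ F''` ANY element which is small on `cInf` (`θ ∈ 𝔪_{w₁}`) and whose residues on the middle
valuations are `m_{b'} · c₁` (`b' < q - 1`), `m_{b₀} = 1`, `m_{b'} ≠ 1` for `b' ≠ b₀` (e.g. helper6's
`thetaGen r x h z`, `c₁ = res₂ r · θ x̃ / h̃`, `m_{b'} = (b' + 1)/(b₀ + 1)`).  Then
`Ψ = minpoly F' θ` reduces to `X ∏_{b'} (X - m_{b'} c₁)` and
`Ψ̄'(c₁) = c₁^{q-1} ∏_{b' ≠ b₀} (1 - m_{b'})`: the root `θ̄ = c₁` is simple at every point `Q''` of
`mid` at which `c₁` has a finite nonzero value.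

* `sigmaB_aeval_derivative_minpoly` : `σ_{b₀}(Ψ'(θ)) = ∏_{o ≠ b₀} (σ_{b₀} θ - σ_o θ)`;
* `resw2_aeval_derivative_minpoly` : the residue of `Ψ'(θ)` on `w₂ b₀` is `c₁^{q-1} · κ₀`;
* **`exists_coverSheet_mid`** : `∃ ψ ψc, CoverSheet B (residue B) can.O can.res Q' mid.O mid.res Q''
  R' θ (minpoly F' θ) ψ ψc u` from the residues + `ord_map` + the chart-ring hypotheses
  (`coeff_mem`, `hlift`, `hreg`) + the value `ū ≠ 0` of `θ̄` at `Q''`
  (through helper4's `CoverK.OfMinpoly.exists_coverSheet_of_minpoly`);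
* `exists_coverSheet_mid_chart` : the same for `R' = C.R`, `C` a smooth chart (`hreg` automatic);
* `exists_coverSheet_mid_thetaGen` : the instance `θ = thetaGen r x h (ζ^{b₀+1})`.
-/

set_option autoImplicit false
set_option linter.style.haveILetI false
set_option linter.unusedSectionVars false

noncomputable section

/- S36 build-time patch: file-local shortcut instances. They only shorten instance search;
each is the instance that the search finds anyway (reducible, same terms after unfolding). -/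
local instance (priority := 100000) Fermat.Agent.BR3.FastInst.instAlgFullC_CuspMid_MidGeneric
    {k : Type*} [Field k] (N : ℕ) :
    Algebra k ↥(ModularCurve.modularFunctionFieldFullC k N) := inferInstance
local instance (priority := 100000) Fermat.Agent.BR3.FastInst.instFieldFullC_CuspMid_MidGeneric
    {k : Type*} [Field k] (N : ℕ) :
    Field ↥(ModularCurve.modularFunctionFieldFullC k N) := inferInstance
local instance (priority := 100000) Fermat.Agent.BR3.FastInst.instAlgLaurent_CuspMid_MidGeneric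
    {k : Type*} [Field k] : Algebra k (LaurentSeries k) := inferInstance


set_option synthInstance.maxHeartbeats 400000

namespace Fermat.Agent.BR3.CuspMid

open ModularCurve AlgebraicCurve HahnSeries Polynomial Fermat.Agent.X0 Fermat.Agent.Val
open Fermat.Agent.Hecke.AL Fermat.Agent.BR.TwoVal Fermat.Agent.BR.ResGen Fermat.Agent.Red
open Fermat.Agent.BR.TwoValInst Fermat.Agent.BR3.FibreProd Fermat.Agent.BR.ConstRedTwo
open Fermat.Agent.BR3.CoverK Fermat.Agent.BR3.CoverSheetInf Fermat.Agent.BR.S0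
open Fermat.Agent.BR3.IgSq

variable {M q : ℕ} [NeZero M] [hq : Fact q.Prime]
variable (B : ValuationSubring (AlgebraicClosure ℚ)) (hB : B.LiesOverPrime q) (hqM : ¬ q ∣ M)
variable {ζ : Kbˣ} (hζ : IsPrimitiveRoot ζ q)

local notation "kB" => IsLocalRing.ResidueField B
local notation "FtM" => modularFunctionFieldFullC (IsLocalRing.ResidueField B) M
local notation "GA" => gaussRingA B (IsLocalRing.residue B)

/-! ### The derivative of the minimal polynomial at the generator -/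

section Derivative

variable {θ : Fb (M * q * q)} (hx : θ ∉ Set.range (alpha2 M q))

include hx in
/-- `σ_{b₀}(Ψ'(θ)) = ∏_{o ≠ b₀} (σ_{b₀} θ - σ_o θ)`. -/
theorem sigmaB_aeval_derivative_minpoly (b₀ : Fin (q - 1)) :
    letI := algebraAlong (alpha2 M q)
    sigmaB hqM hζ b₀.2 (aeval θ (derivative (minpoly (Fb (M * q)) θ))) =
      ∏ o ∈ Finset.univ.erase (some b₀),
        (sigmaAll hqM hζ (some b₀) θ - sigmaAll hqM hζ o θ) := by
  classical
  letI := algebraAlong (alpha2 M q)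
  have h1 : sigmaB hqM hζ b₀.2 (aeval θ (derivative (minpoly (Fb (M * q)) θ))) =
      ((derivative (minpoly (Fb (M * q)) θ)).map (coeB (M * q))).eval
        (sigmaB hqM hζ b₀.2 θ) := by
    rw [aeval_def, Polynomial.hom_eval₂, Polynomial.eval_map]
    congr 1
    exact RingHom.ext fun y => sigmaB_alpha2 hqM hζ b₀.2 y
  rw [h1, ← Polynomial.derivative_map, minpoly_map_coeB hx hqM hζ]
  exact Fermat.Agent.BR.ModUnit.eval_derivative_prod_X_sub_C'
    (fun o => sigmaAll hqM hζ o θ) (some b₀)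

end Derivative

section Residue

variable {θ : Fb (M * q * q)} (b₀ : Fin (q - 1))
  (c₁ : LaurentSeries (IsLocalRing.ResidueField B)) (m : Fin (q - 1) → IsLocalRing.ResidueField B)
  (h1 : θ ∈ (w1 M B hB).nonunits)
  (h2 : ∀ b' : Fin (q - 1), ∃ hmem : θ ∈ w2 B hB hqM hζ b'.2,
    resw2 B hB hqM hζ b'.2 ⟨θ, hmem⟩ =
      (HahnSeries.C (m b') : LaurentSeries (IsLocalRing.ResidueField B)) * c₁)

theorem erase_some_eq (b₀ : Fin (q - 1)) :
    (Finset.univ.erase (some b₀) : Finset (Option (Fin (q - 1)))) =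
      Finset.insertNone (Finset.univ.erase b₀) := by
  ext o
  cases o with
  | none => simp
  | some b => simp

include h1 h2 in
/-- **The residue of `Ψ'(θ)` on the middle valuation `w₂ b₀`** is `c₁^{q-1} · ∏_{b' ≠ b₀}
(1 - m_{b'})`, when `m_{b₀} = 1`. -/
theorem resw2_aeval_derivative_minpoly (hx : θ ∉ Set.range (alpha2 M q)) (hm0 : m b₀ = 1)
    (hmem : letI := algebraAlong (alpha2 M q)
      aeval θ (derivative (minpoly (Fb (M * q)) θ)) ∈ w2 B hB hqM hζ b₀.2) :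
    letI := algebraAlong (alpha2 M q)
    resw2 B hB hqM hζ b₀.2 ⟨aeval θ (derivative (minpoly (Fb (M * q)) θ)), hmem⟩ =
      c₁ ^ (q - 1) *
        (HahnSeries.C (∏ b' ∈ Finset.univ.erase b₀, (1 - m b')) : LaurentSeries kB) := by
  classical
  letI := algebraAlong (alpha2 M q)
  have h1' : θ ∈ w1 M B hB := ValuationSubring.nonunits_subset h1
  have h2' : ∀ b' : Fin (q - 1), θ ∈ w2 B hB hqM hζ b'.2 := fun b' => (h2 b').1
  -- the conjugates in the Gauss ring and their residues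
  set a : Option (Fin (q - 1)) → GA := fun o =>
    ⟨sigmaAll hqM hζ o θ, sigmaAll_mem_gaussRingA B hB hqM hζ h1' h2' o⟩ with ha
  have hanone : gaussResA B (IsLocalRing.residue B) (a none) = 0 :=
    (Fermat.Agent.BR.TwoValInst.mem_nonunits_O1_iff (M := M * q) B hB h1').1 h1
  have hasome : ∀ b' : Fin (q - 1),
      gaussResA B (IsLocalRing.residue B) (a (some b')) =
        (HahnSeries.C (m b') : LaurentSeries kB) * c₁ := by
    intro b'
    obtain ⟨hmem', hres⟩ := h2 b'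
    rw [← hres]
    rfl
  have hprod : (⟨sigmaB hqM hζ b₀.2 (aeval θ (derivative (minpoly (Fb (M * q)) θ))), hmem⟩ : GA) =
      ∏ o ∈ Finset.univ.erase (some b₀), (a (some b₀) - a o) := by
    apply Subtype.ext
    show sigmaB hqM hζ b₀.2 (aeval θ (derivative (minpoly (Fb (M * q)) θ))) =
      (GA).subtype (∏ o ∈ Finset.univ.erase (some b₀), (a (some b₀) - a o))
    rw [map_prod]
    exact sigmaB_aeval_derivative_minpoly hqM hζ hx b₀
  rw [resw2_apply]
  show gaussResA B (IsLocalRing.residue B)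
    (⟨sigmaB hqM hζ b₀.2 (aeval θ (derivative (minpoly (Fb (M * q)) θ))), hmem⟩ : GA) = _
  rw [hprod, map_prod, erase_some_eq, Finset.prod_insertNone]
  simp only [map_sub, hasome, hanone, hm0, sub_zero, map_one, one_mul]
  have hfac : ∀ b' : Fin (q - 1), c₁ - (HahnSeries.C (m b') : LaurentSeries kB) * c₁ =
      c₁ * (HahnSeries.C (1 - m b') : LaurentSeries kB) := by
    intro b'
    rw [map_sub, map_one]
    ring
  simp only [hfac]
  rw [Finset.prod_mul_distrib, Finset.prod_const, Finset.card_erase_of_mem (Finset.mem_univ _),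
    Finset.card_univ, Fintype.card_fin, ← map_prod, ← mul_assoc, ← pow_succ']
  congr 2
  have := b₀.2
  omega

end Residue

/-! ### The sheet -/

section Sheet

variable {θ : Fb (M * q * q)} (b₀ : Fin (q - 1))
  (c₁ : LaurentSeries (IsLocalRing.ResidueField B)) (m : Fin (q - 1) → IsLocalRing.ResidueField B)

set_option maxHeartbeats 2000000 in
/-- **The sheet of the middle component `mid = w₂ b₀` over a point of `can` along `α₂`**, from the
residues of a generator `θ`: small on `cInf`, residue `m_{b'} · c₁` on `w₂ b'` with `m_{b₀} = 1`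
and `m_{b'} ≠ 1` otherwise, `θ̄ = c₁` with a finite nonzero value `ū` at `Q''`. -/
theorem exists_coverSheet_mid
    (h1 : θ ∈ (w1 M B hB).nonunits)
    (h2 : ∀ b' : Fin (q - 1), ∃ hmem : θ ∈ w2 B hB hqM hζ b'.2,
      resw2 B hB hqM hζ b'.2 ⟨θ, hmem⟩ = (HahnSeries.C (m b') : LaurentSeries kB) * c₁)
    (hm0 : m b₀ = 1) (hm : ∀ b', b' ≠ b₀ → m b' ≠ 1)
    (Q' : Place kB FtM) (Q'' : Place kB (FMid M B))
    (ord_map : ∀ f : FtM, Q''.ord (algebraMap FtM (FMid M B) f) = Q'.ord f)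
    (R' : Subring (Fb (M * q))) (hR' : ∀ y ∈ R', y ∈ (constRedW1 B hB hqM).O)
    (coeff_mem : letI := algebraAlong (alpha2 M q)
      ∀ n, (minpoly (Fb (M * q)) θ).coeff n ∈ R')
    (hlift : ∀ f : FtM, 0 ≤ Q'.ord f →
      ∃ y ∈ R', ∃ hy : y ∈ (constRedW1 B hB hqM).O, (constRedW1 B hB hqM).res ⟨y, hy⟩ = f)
    (hreg : letI := algebraAlong (alpha2 M q)
      ∀ n, 0 ≤ Q'.ord ((constRedW1 B hB hqM).res
        ⟨(minpoly (Fb (M * q)) θ).coeff n, hR' _ (coeff_mem n)⟩))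
    (u : B) (hu0 : IsLocalRing.residue B u ≠ 0)
    (hval : ∀ hmem : θ ∈ w2 B hB hqM hζ b₀.2,
      IsValueAt Q'' (resMid B hB hqM hζ b₀.2 ⟨θ, hmem⟩) (IsLocalRing.residue B u)) :
    letI := algebraAlong (alpha2 M q)
    haveI := isScalarTower_along (alpha2 M q)
    ∃ ψ ψc : (Fb (M * q))[X],
      CoverSheet B (IsLocalRing.residue B) (constRedW1 B hB hqM).O (constRedW1 B hB hqM).res Q'
        (constRedMid B hB hqM hζ b₀.2).O (constRedMid B hB hqM hζ b₀.2).res Q'' R' θ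
        (minpoly (Fb (M * q)) θ) ψ ψc u ∧
      ψ.natDegree = (minpoly FtM (resMid B hB hqM hζ b₀.2 ⟨θ, (h2 b₀).1⟩)).natDegree := by
  classical
  letI := algebraAlong (alpha2 M q)
  haveI := isScalarTower_along (alpha2 M q)
  haveI : Module.Finite (Fb (M * q)) (Fb (M * q * q)) :=
    Fermat.Agent.Hecke.finiteAlong_heckeAlphaBar (M * q) q
  have hint : IsIntegral (Fb (M * q)) θ := Algebra.IsIntegral.isIntegral _
  have hθmem : θ ∈ w2 B hB hqM hζ b₀.2 := (h2 b₀).1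
  have hvalθ := hval hθmem
  -- `θ̄ ≠ 0` on `w₂ b₀`, hence `θ ∉ α₂ F'`
  have hres0 : resMid B hB hqM hζ b₀.2 ⟨θ, hθmem⟩ ≠ 0 := by
    intro h0
    rw [h0] at hvalθ
    exact hu0 ((isValueAt_zero Q'').unique hvalθ).symm
  have hnu : θ ∉ (w2 B hB hqM hζ b₀.2).nonunits := fun h =>
    hres0 ((resMid_eq_zero_iff_mem_nonunits B hB hqM hζ b₀.2 ⟨θ, hθmem⟩).2 h)
  have hx : θ ∉ Set.range (alpha2 M q) := notMem_range_alpha2_of_w1_w2 hqM B hB hζ b₀.2 h1 hnu
  -- `c₁` is the residue of `θ` on `w₂ b₀`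
  have hc₁ : resw2 B hB hqM hζ b₀.2 ⟨θ, hθmem⟩ = c₁ := by
    obtain ⟨hmem', hres⟩ := h2 b₀
    rw [hres, hm0, map_one, one_mul]
  have hκ0 : (∏ b' ∈ Finset.univ.erase b₀, (1 - m b')) ≠ 0 := by
    rw [Finset.prod_ne_zero_iff]
    intro b' hb'
    exact sub_ne_zero.mpr (Ne.symm (hm b' (Finset.ne_of_mem_erase hb')))
  have hsheet := OfMinpoly.exists_coverSheet_of_minpoly (A := B) (π := IsLocalRing.residue B)
    (O' := (constRedW1 B hB hqM).O) (res' := (constRedW1 B hB hqM).res) (Q' := Q')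
    (O'' := (constRedMid B hB hqM hζ b₀.2).O) (res'' := (constRedMid B hB hqM hζ b₀.2).res)
    (Q'' := Q'') (R' := R') (θ := θ) (Ψ := minpoly (Fb (M * q)) θ) (u := u)
    (comap_alpha2_w2 B hB hqM hζ b₀.2)
    (fun y hy hy' => resMid_alpha2 B hB hqM hζ b₀.2 y hy)
    (resMid_eq_zero_iff_mem_nonunits B hB hqM hζ b₀.2)
    ord_map hθmem (minpoly.monic hint) (minpoly.irreducible hint) coeff_mem (minpoly.aeval _ _)
    (exists_aeval_eq_of_notMem_range hx) hvalθ ?_ hR' hlift hreg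
  · exact hsheet
  · -- simple
    intro h
    have hres := resw2_aeval_derivative_minpoly B hB hqM hζ b₀ c₁ m h1 h2 hx hm0 h
    have e : resMid B hB hqM hζ b₀.2 ⟨aeval θ (derivative (minpoly (Fb (M * q)) θ)), h⟩ =
        resMid B hB hqM hζ b₀.2 ⟨θ, hθmem⟩ ^ (q - 1) *
          algebraMap kB (FMid M B) (∏ b' ∈ Finset.univ.erase b₀, (1 - m b')) := by
      apply Subtype.ext
      rw [coe_resMid, hres]
      show _ = ((resMid B hB hqM hζ b₀.2 ⟨θ, hθmem⟩ : FMid M B) : LaurentSeries kB) ^ (q - 1) *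
        algebraMap kB (LaurentSeries kB) _
      rw [coe_resMid, hc₁, algebraMap_laurentSeries_eq_single, ← HahnSeries.C_apply]
    show ¬ Q''.adicValuation (resMid B hB hqM hζ b₀.2
      ⟨aeval θ (derivative (minpoly (Fb (M * q)) θ)), h⟩) < 1
    rw [e]
    have hv := (hvalθ.pow (q - 1)).mul (isValueAt_algebraMap Q''
      (∏ b' ∈ Finset.univ.erase b₀, (1 - m b')))
    rw [hv.adicValuation_eq_one (mul_ne_zero (pow_ne_zero _ hu0) hκ0)]
    exact lt_irrefl _

set_option maxHeartbeats 2000000 in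
/-- **The sheet of `mid = w₂ b₀` for the local ring of a smooth chart**: `hreg` is automatic. -/
theorem exists_coverSheet_mid_chart
    (h1 : θ ∈ (w1 M B hB).nonunits)
    (h2 : ∀ b' : Fin (q - 1), ∃ hmem : θ ∈ w2 B hB hqM hζ b'.2,
      resw2 B hB hqM hζ b'.2 ⟨θ, hmem⟩ = (HahnSeries.C (m b') : LaurentSeries kB) * c₁)
    (hm0 : m b₀ = 1) (hm : ∀ b', b' ≠ b₀ → m b' ≠ 1)
    (Q' : Place kB FtM) (Q'' : Place kB (FMid M B))
    (ord_map : ∀ f : FtM, Q''.ord (algebraMap FtM (FMid M B) f) = Q'.ord f)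
    {T' : Set (Place Kb (Fb (M * q)))}
    (C : SmoothChart B (constRedW1 B hB hqM).O (constRedW1 B hB hqM).res Q' T')
    (coeff_mem : letI := algebraAlong (alpha2 M q)
      ∀ n, (minpoly (Fb (M * q)) θ).coeff n ∈ C.R)
    (hlift : ∀ f : FtM, 0 ≤ Q'.ord f →
      ∃ y ∈ C.R, ∃ hy : y ∈ (constRedW1 B hB hqM).O, (constRedW1 B hB hqM).res ⟨y, hy⟩ = f)
    (u : B) (hu0 : IsLocalRing.residue B u ≠ 0)
    (hval : ∀ hmem : θ ∈ w2 B hB hqM hζ b₀.2,
      IsValueAt Q'' (resMid B hB hqM hζ b₀.2 ⟨θ, hmem⟩) (IsLocalRing.residue B u)) :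
    letI := algebraAlong (alpha2 M q)
    haveI := isScalarTower_along (alpha2 M q)
    ∃ ψ ψc : (Fb (M * q))[X],
      CoverSheet B (IsLocalRing.residue B) (constRedW1 B hB hqM).O (constRedW1 B hB hqM).res Q'
        (constRedMid B hB hqM hζ b₀.2).O (constRedMid B hB hqM hζ b₀.2).res Q'' C.R θ
        (minpoly (Fb (M * q)) θ) ψ ψc u ∧
      ψ.natDegree = (minpoly FtM (resMid B hB hqM hζ b₀.2 ⟨θ, (h2 b₀).1⟩)).natDegree := by
  letI := algebraAlong (alpha2 M q)
  haveI := isScalarTower_along (alpha2 M q)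
  exact exists_coverSheet_mid B hB hqM hζ b₀ c₁ m h1 h2 hm0 hm Q' Q'' ord_map C.R C.le coeff_mem
    hlift (fun n => OfMinpoly.ord_res_nonneg C
      (fun a ha h => (constRedW1 B hB hqM).res_algebraMap a ha h) (coeff_mem n)) u hu0 hval

end Sheet

/-! ### The instance `θ = thetaGen r x h (ζ^{b₀+1})` -/

section ThetaGen

include hB hζ in
/-- a multiplier `m` with `ζ^{b'+1} = (ζ^{b₀+1})^m` is `1` in `k` iff `b' = b₀` -/
theorem natCast_eq_one_iff_of_zeta_pow {b₀ b' : Fin (q - 1)} {n : ℕ}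
    (hn : ζ ^ ((b' : ℕ) + 1) = (ζ ^ ((b₀ : ℕ) + 1)) ^ n) : ((n : ℕ) : kB) = 1 ↔ b' = b₀ := by
  haveI := charP_kB B hB
  have hcop : Nat.Coprime ((b₀ : ℕ) + 1) q := by
    rw [Nat.coprime_comm]
    refine (Nat.Prime.coprime_iff_not_dvd hq.out).2 fun h => ?_
    have := Nat.le_of_dvd (Nat.succ_pos _) h
    have := b₀.2
    omega
  have hprim : IsPrimitiveRoot (ζ ^ ((b₀ : ℕ) + 1)) q := hζ.pow_of_coprime _ hcop
  have h1 : ((n : ℕ) : kB) = 1 ↔ n ≡ 1 [MOD q] := by
    rw [← Nat.cast_one (R := kB), CharP.natCast_eq_natCast kB q]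
  rw [h1]
  constructor
  · intro hmod
    have h2 : (ζ ^ ((b₀ : ℕ) + 1)) ^ n = (ζ ^ ((b₀ : ℕ) + 1)) ^ 1 := by
      rw [pow_eq_pow_iff_modEq, hprim.eq_orderOf.symm]
      exact hmod
    rw [pow_one] at h2
    rw [h2] at hn
    have h3 := hζ.pow_inj (by have := b'.2; omega) (by have := b₀.2; omega) hn
    exact Fin.ext (by omega)
  · rintro rfl
    have h2 : (ζ ^ ((b' : ℕ) + 1)) ^ n = (ζ ^ ((b' : ℕ) + 1)) ^ 1 := by
      rw [pow_one]
      exact hn.symm
    rw [pow_eq_pow_iff_modEq, hprim.eq_orderOf.symm] at h2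
    exact h2

set_option maxHeartbeats 2000000 in
/-- **The sheet of `mid = w₂ b₀` with helper6's generator `thetaGen r x h (ζ^{b₀+1})`**
(`BR3/FibreProdMidGH`): `r ∈ O2`, `r/(z - 1)` small on `can`, `x ∈ O1 ∩ O2`, `h⁻¹ ∈ O1`; the residue
of the generator on `mid` is `c₁ = res₂ r · θ x̃ · res₁ h⁻¹`. -/
theorem exists_coverSheet_mid_thetaGen (b₀ : Fin (q - 1)) {r x h : Fb (M * q)}
    (hr2 : r ∈ O2 B hB hqM)
    (hr1 : r * algebraMap Kb (Fb (M * q)) ((((ζ ^ ((b₀ : ℕ) + 1) : Kbˣ) : Kb)) - 1)⁻¹ ∈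
      (O1 M B hB).nonunits)
    (hx1 : x ∈ O1 M B hB) (hx2 : x ∈ O2 B hB hqM) (hh : h⁻¹ ∈ O1 M B hB)
    (Q' : Place kB FtM) (Q'' : Place kB (FMid M B))
    (ord_map : ∀ f : FtM, Q''.ord (algebraMap FtM (FMid M B) f) = Q'.ord f)
    {T' : Set (Place Kb (Fb (M * q)))}
    (C : SmoothChart B (constRedW1 B hB hqM).O (constRedW1 B hB hqM).res Q' T')
    (coeff_mem : letI := algebraAlong (alpha2 M q)
      ∀ n, (minpoly (Fb (M * q))
        (thetaGen hqM r x h ((ζ ^ ((b₀ : ℕ) + 1) : Kbˣ) : Kb))).coeff n ∈ C.R)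
    (hlift : ∀ f : FtM, 0 ≤ Q'.ord f →
      ∃ y ∈ C.R, ∃ hy : y ∈ (constRedW1 B hB hqM).O, (constRedW1 B hB hqM).res ⟨y, hy⟩ = f)
    (u : B) (hu0 : IsLocalRing.residue B u ≠ 0)
    (hval : ∀ hmem : thetaGen hqM r x h ((ζ ^ ((b₀ : ℕ) + 1) : Kbˣ) : Kb) ∈
        w2 B hB hqM hζ b₀.2,
      IsValueAt Q'' (resMid B hB hqM hζ b₀.2 ⟨_, hmem⟩) (IsLocalRing.residue B u)) :
    letI := algebraAlong (alpha2 M q)
    haveI := isScalarTower_along (alpha2 M q)
    ∃ ψ ψc : (Fb (M * q))[X],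
      CoverSheet B (IsLocalRing.residue B) (constRedW1 B hB hqM).O (constRedW1 B hB hqM).res Q'
        (constRedMid B hB hqM hζ b₀.2).O (constRedMid B hB hqM hζ b₀.2).res Q'' C.R
        (thetaGen hqM r x h ((ζ ^ ((b₀ : ℕ) + 1) : Kbˣ) : Kb))
        (minpoly (Fb (M * q)) (thetaGen hqM r x h ((ζ ^ ((b₀ : ℕ) + 1) : Kbˣ) : Kb))) ψ ψc u := by
  letI := algebraAlong (alpha2 M q)
  haveI := isScalarTower_along (alpha2 M q)
  have hex : ∀ b' : Fin (q - 1), ∃ n : ℕ, ζ ^ ((b' : ℕ) + 1) = (ζ ^ ((b₀ : ℕ) + 1)) ^ n :=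
    fun b' => exists_zeta_pow_eq hζ b₀.2 b'.2
  set m : Fin (q - 1) → kB := fun b' => (((hex b').choose : ℕ) : kB) with hmdef
  set c₁ : LaurentSeries kB := res2 B hB hqM ⟨r, hr2⟩ * thetaL kB (res1 M B hB ⟨x, hx1⟩) *
    res1 M B hB ⟨h⁻¹, hh⟩ with hc₁
  have h1 := thetaGen_mem_nonunits_w1 hqM B hB
    (z := ((ζ ^ ((b₀ : ℕ) + 1) : Kbˣ) : Kb)) hr1 hx1 hx2 hh
  have h2 : ∀ b' : Fin (q - 1), ∃ hmem : thetaGen hqM r x h ((ζ ^ ((b₀ : ℕ) + 1) : Kbˣ) : Kb) ∈
      w2 B hB hqM hζ b'.2, resw2 B hB hqM hζ b'.2 ⟨_, hmem⟩ =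
        (HahnSeries.C (m b') : LaurentSeries kB) * c₁ := by
    intro b'
    obtain ⟨hmem, hres⟩ := exists_resw2_thetaGen hqM B hB hζ (b := (b₀ : ℕ)) hr2 hx1 hh b'.2
      (hex b').choose (hex b').choose_spec
    refine ⟨hmem, ?_⟩
    rw [hres, hc₁, hmdef]
    ring
  have hm0 : m b₀ = 1 :=
    (natCast_eq_one_iff_of_zeta_pow B hB hζ (hex b₀).choose_spec).2 rfl
  have hm : ∀ b', b' ≠ b₀ → m b' ≠ 1 := fun b' hb' h =>
    hb' ((natCast_eq_one_iff_of_zeta_pow B hB hζ (hex b').choose_spec).1 h)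
  obtain ⟨ψ, ψc, hsheet, -⟩ := exists_coverSheet_mid_chart B hB hqM hζ b₀ c₁ m h1 h2 hm0 hm Q' Q''
    ord_map C coeff_mem hlift u hu0 hval
  exact ⟨ψ, ψc, hsheet⟩

end ThetaGen

end Fermat.Agent.BR3.CuspMid
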